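/-
JT3 (Jacobian tower), Eichler–Shimura side: the RIGIDITY LEMMA.

Two additive maps `Θ₁ Θ₂ : Div(F) → Div(F̃)` that are bounded on places (e.g. positive
correspondences of bounded degree composed with a place map) and agree on a generating set of the
principal divisors of `F` agree on ALL divisors of degree `0`, provided every divisor class of
degree `0` of `F` has a representative of bounded `ℓ¹`-norm (Riemann's inequality).

The point: `δ = Θ₁ - Θ₂` induces a homomorphism `Pic⁰(F) → Div(F̃)` with BOUNDED image in a free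
abelian group, hence `δ = 0`.  No divisibility of `Pic⁰(F)` is needed.
-/
import Mathlib
import Fermat.Prelude.Def_AlgebraicCurve_DivisorClassGroup

set_option autoImplicit false

namespace Fermat.Agent.JT3

open AlgebraicCurve

/-! ### the `ℓ¹`-norm on `ι →₀ ℤ` -/

section Norm

variable {ι κ : Type*}

/-- the `ℓ¹`-norm of a finitely supported integer valued function -/
noncomputable def rg_norm (D : ι →₀ ℤ) : ℕ := D.sum fun _ n => n.natAbs

theorem rg_norm_def (D : ι →₀ ℤ) : rg_norm D = ∑ i ∈ D.support, (D i).natAbs := rfl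

theorem rg_norm_eq_sum (D : ι →₀ ℤ) (s : Finset ι) (hs : D.support ⊆ s) :
    rg_norm D = ∑ i ∈ s, (D i).natAbs := by
  rw [rg_norm_def]
  refine Finset.sum_subset hs fun i _ hi => ?_
  rw [Finsupp.notMem_support_iff.mp hi, Int.natAbs_zero]

@[simp] theorem rg_norm_zero : rg_norm (0 : ι →₀ ℤ) = 0 := by
  simp [rg_norm_def]

theorem rg_norm_add_le (D E : ι →₀ ℤ) : rg_norm (D + E) ≤ rg_norm D + rg_norm E := by
  classical
  have hs : (D + E).support ⊆ D.support ∪ E.support := Finsupp.support_add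
  rw [rg_norm_eq_sum (D + E) _ hs, rg_norm_eq_sum D _ Finset.subset_union_left,
    rg_norm_eq_sum E _ Finset.subset_union_right, ← Finset.sum_add_distrib]
  refine Finset.sum_le_sum fun i _ => ?_
  rw [Finsupp.add_apply]
  exact Int.natAbs_add_le _ _

@[simp] theorem rg_norm_neg (D : ι →₀ ℤ) : rg_norm (-D) = rg_norm D := by
  rw [rg_norm_def, rg_norm_def, Finsupp.support_neg]
  refine Finset.sum_congr rfl fun i _ => ?_
  rw [Finsupp.neg_apply, Int.natAbs_neg]

theorem rg_norm_sub_le (D E : ι →₀ ℤ) : rg_norm (D - E) ≤ rg_norm D + rg_norm E := by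
  rw [sub_eq_add_neg]
  exact (rg_norm_add_le _ _).trans (by rw [rg_norm_neg])

theorem rg_norm_single (i : ι) (n : ℤ) : rg_norm (Finsupp.single i n) = n.natAbs := by
  rw [rg_norm, Finsupp.sum_single_index]
  rfl

theorem rg_norm_nsmul (m : ℕ) (D : ι →₀ ℤ) : rg_norm (m • D) = m * rg_norm D := by
  rcases Nat.eq_zero_or_pos m with rfl | hm
  · simp
  have hs : (m • D).support ⊆ D.support := Finsupp.support_smul
  rw [rg_norm_eq_sum (m • D) _ hs, rg_norm_def, Finset.mul_sum]
  refine Finset.sum_congr rfl fun i _ => ?_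
  rw [Finsupp.smul_apply, nsmul_eq_mul, Int.natAbs_mul, Int.natAbs_natCast]

theorem rg_norm_eq_zero_iff (D : ι →₀ ℤ) : rg_norm D = 0 ↔ D = 0 := by
  constructor
  · intro h
    ext i
    rw [Finsupp.zero_apply]
    by_contra hi
    have hmem : i ∈ D.support := Finsupp.mem_support_iff.mpr hi
    rw [rg_norm_def, Finset.sum_eq_zero_iff] at h
    exact hi (Int.natAbs_eq_zero.mp (h i hmem))
  · rintro rfl
    exact rg_norm_zero

/-- a sum of norms bounds the norm of a `Finsupp.sum` -/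
theorem rg_norm_sum_le {α : Type*} (s : Finset α) (f : α → ι →₀ ℤ) :
    rg_norm (∑ a ∈ s, f a) ≤ ∑ a ∈ s, rg_norm (f a) := by
  classical
  induction s using Finset.induction_on with
  | empty => simp
  | insert a s ha ih =>
    rw [Finset.sum_insert ha, Finset.sum_insert ha]
    exact (rg_norm_add_le _ _).trans (Nat.add_le_add_left ih _)

/-- an additive map bounded by `c` on the points is bounded by `c ‖D‖₁` -/
theorem rg_norm_map_le (Θ : (ι →₀ ℤ) →+ (κ →₀ ℤ)) (c : ℕ)
    (hc : ∀ i, rg_norm (Θ (Finsupp.single i 1)) ≤ c) (D : ι →₀ ℤ) :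
    rg_norm (Θ D) ≤ c * rg_norm D := by
  classical
  have hsingle : ∀ (i : ι) (n : ℤ), rg_norm (Θ (Finsupp.single i n)) ≤ c * n.natAbs := by
    intro i n
    have h1 : ∀ m : ℕ, rg_norm (Θ (Finsupp.single i (m : ℤ))) ≤ c * m := by
      intro m
      have e : Finsupp.single i (m : ℤ) = m • Finsupp.single i (1 : ℤ) := by
        rw [Finsupp.smul_single, nsmul_eq_mul, mul_one]
      rw [e, map_nsmul, rg_norm_nsmul, mul_comm]
      exact Nat.mul_le_mul_right m (hc i)
    rcases Int.natAbs_eq n with h | h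
    · rw [h, Int.natAbs_natCast]
      exact h1 _
    · have e : Finsupp.single i n = -Finsupp.single i ((n.natAbs : ℕ) : ℤ) := by
        rw [← Finsupp.single_neg, ← h]
      rw [e, map_neg, rg_norm_neg]
      exact h1 _
  have hD : D = ∑ i ∈ D.support, Finsupp.single i (D i) := by
    conv_lhs => rw [← Finsupp.sum_single D]
    rfl
  calc rg_norm (Θ D) = rg_norm (∑ i ∈ D.support, Θ (Finsupp.single i (D i))) := by
        conv_lhs => rw [hD, map_sum]
    _ ≤ ∑ i ∈ D.support, rg_norm (Θ (Finsupp.single i (D i))) := rg_norm_sum_le _ _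
    _ ≤ ∑ i ∈ D.support, c * (D i).natAbs := Finset.sum_le_sum fun i _ => hsingle i (D i)
    _ = c * rg_norm D := by rw [rg_norm_def, Finset.mul_sum]

theorem rg_norm_mapDomain_le (r : ι → κ) (D : ι →₀ ℤ) :
    rg_norm (Finsupp.mapDomain r D) ≤ rg_norm D := by
  have h := rg_norm_map_le (Finsupp.mapDomain.addMonoidHom r : (ι →₀ ℤ) →+ (κ →₀ ℤ)) 1
    (fun i => by
      rw [Finsupp.mapDomain.addMonoidHom_apply, Finsupp.mapDomain_single, rg_norm_single]
      simp) D
  simpa using h

/-- for a nonnegative `D` the norm is the sum of the coefficients -/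
theorem rg_norm_of_nonneg (D : ι →₀ ℤ) (hD : ∀ i, 0 ≤ D i) :
    (rg_norm D : ℤ) = D.sum fun _ n => n := by
  rw [rg_norm_def, Finsupp.sum, Nat.cast_sum]
  refine Finset.sum_congr rfl fun i _ => ?_
  rw [Int.natCast_natAbs, abs_of_nonneg (hD i)]

end Norm

/-! ### the abstract rigidity lemma -/

section Abstract

variable {ι κ : Type*}

/-- **Rigidity, abstract form.** `δ` kills `P` ("principal"), every element of `G` ("degree `0`")
is congruent modulo `P` to an element on which `δ` is bounded by `B`: then `δ` kills `G`. -/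
theorem rg_rigidity (G P : AddSubgroup (ι →₀ ℤ)) (δ : (ι →₀ ℤ) →+ (κ →₀ ℤ))
    (hP : ∀ D ∈ P, δ D = 0) (B : ℕ)
    (hrep : ∀ D ∈ G, ∃ D' : ι →₀ ℤ, D - D' ∈ P ∧ rg_norm (δ D') ≤ B) :
    ∀ D ∈ G, δ D = 0 := by
  intro D hD
  rw [← rg_norm_eq_zero_iff]
  by_contra hne
  have hpos : 0 < rg_norm (δ D) := Nat.pos_of_ne_zero hne
  obtain ⟨D', hD', hB⟩ := hrep ((B + 1) • D) (G.nsmul_mem hD _)
  have h0 := hP _ hD'
  rw [map_sub, sub_eq_zero, map_nsmul] at h0
  have h1 : (B + 1) * rg_norm (δ D) ≤ B := by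
    rw [← rg_norm_nsmul, h0]
    exact hB
  have h2 : B + 1 ≤ (B + 1) * rg_norm (δ D) := Nat.le_mul_of_pos_right _ hpos
  omega

/-- **Rigidity for two maps**: `Θ₁`, `Θ₂` bounded by `c` on the points, equal on a set `S` whose
closure contains `P`; every element of `G` is congruent mod `P` to one of norm `≤ g`. -/
theorem rg_rigidity₂ (G P : AddSubgroup (ι →₀ ℤ)) (Θ₁ Θ₂ : (ι →₀ ℤ) →+ (κ →₀ ℤ)) (c : ℕ)
    (h₁ : ∀ i, rg_norm (Θ₁ (Finsupp.single i 1)) ≤ c)
    (h₂ : ∀ i, rg_norm (Θ₂ (Finsupp.single i 1)) ≤ c)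
    (S : Set (ι →₀ ℤ)) (hS : P ≤ AddSubgroup.closure S) (hagree : ∀ D ∈ S, Θ₁ D = Θ₂ D)
    (g : ℕ) (hrep : ∀ D ∈ G, ∃ D' : ι →₀ ℤ, D - D' ∈ P ∧ rg_norm D' ≤ g) :
    ∀ D ∈ G, Θ₁ D = Θ₂ D := by
  have hP : ∀ D ∈ P, (Θ₁ - Θ₂) D = 0 := by
    intro D hD
    have hD' := hS hD
    clear hD
    induction hD' using AddSubgroup.closure_induction with
    | mem E hE => rw [AddMonoidHom.sub_apply, hagree E hE, sub_self]
    | zero => exact map_zero _
    | add E E' _ _ hE hE' => rw [map_add, hE, hE', add_zero]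
    | neg E _ hE => rw [map_neg, hE, neg_zero]
  have key := rg_rigidity G P (Θ₁ - Θ₂) hP (2 * c * g) (by
    intro D hD
    obtain ⟨D', hD', hg⟩ := hrep D hD
    refine ⟨D', hD', ?_⟩
    rw [AddMonoidHom.sub_apply]
    calc rg_norm (Θ₁ D' - Θ₂ D') ≤ rg_norm (Θ₁ D') + rg_norm (Θ₂ D') := rg_norm_sub_le _ _
      _ ≤ c * rg_norm D' + c * rg_norm D' :=
        Nat.add_le_add (rg_norm_map_le Θ₁ c h₁ D') (rg_norm_map_le Θ₂ c h₂ D')
      _ = 2 * c * rg_norm D' := by ring
      _ ≤ 2 * c * g := Nat.mul_le_mul_left _ hg)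
  intro D hD
  have := key D hD
  rwa [AddMonoidHom.sub_apply, sub_eq_zero] at this

end Abstract

/-! ### divisors of function fields -/

section Curve

variable {K F : Type*} [Field K] [Field F] [Algebra K F]

/-- For an effective divisor on a curve all of whose places have degree one, the `ℓ¹`-norm is the
degree. -/
theorem rg_norm_eq_degree_of_nonneg (hdeg : ∀ v : Place K F, v.deg = 1) (D : Divisor K F)
    (hD : ∀ v, 0 ≤ D v) : (rg_norm D : ℤ) = Divisor.degree D := by
  rw [rg_norm_of_nonneg D hD]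
  have : Divisor.degree D = D.sum fun v n => n * (v.deg : ℤ) := by
    rw [Divisor.degree, Finsupp.liftAddHom_apply]
    rfl
  rw [this]
  refine Finsupp.sum_congr fun v _ => ?_
  rw [hdeg v, Nat.cast_one, mul_one]

/-- **Riemann's inequality gives bounded representatives.**  If every divisor of degree `g` has a
nonzero element in its Riemann–Roch space, then every class of degree `0` is represented by a
divisor of norm `≤ 2 g`. -/
theorem rg_exists_rep (hdeg : ∀ v : Place K F, v.deg = 1) (P₀ : Place K F) (g : ℕ)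
    (hprin : ∀ f : F, f ≠ 0 → ∃ Df : Divisor K F,
      (∀ v : Place K F, Df v = v.ord f) ∧ Divisor.degree Df = 0)
    (hR : ∀ E : Divisor K F, Divisor.degree E = g →
      ∃ f : F, f ≠ 0 ∧ ∀ v : Place K F, 0 ≤ E v + v.ord f)
    (D : Divisor K F) (hD : D ∈ Divisor.degZero (K := K) (F := F)) :
    ∃ D' : Divisor K F, D - D' ∈ Divisor.principal (K := K) (F := F) ∧ rg_norm D' ≤ 2 * g := by
  rw [Divisor.mem_degZero] at hD
  set E : Divisor K F := D + Finsupp.single P₀ (g : ℤ) with hE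
  have hEdeg : Divisor.degree E = g := by
    rw [hE, map_add, hD, Divisor.degree_single, hdeg P₀, zero_add, Nat.cast_one, mul_one]
  obtain ⟨f, hf, hfE⟩ := hR E hEdeg
  obtain ⟨Df, hDf, hDf0⟩ := hprin f hf
  refine ⟨D + Df, ?_, ?_⟩
  · have : D - (D + Df) = -Df := by abel
    rw [this]
    exact AddSubgroup.neg_mem _ ⟨f, hf, hDf⟩
  · have hpos : ∀ v, 0 ≤ (E + Df) v := by
      intro v
      rw [Finsupp.add_apply, hDf v]
      exact hfE v
    have hnorm : (rg_norm (E + Df) : ℤ) = g := by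
      rw [rg_norm_eq_degree_of_nonneg hdeg _ hpos, map_add, hEdeg, hDf0, add_zero]
    have hnorm' : rg_norm (E + Df) = g := by exact_mod_cast hnorm
    have e : D + Df = (E + Df) - Finsupp.single P₀ (g : ℤ) := by
      rw [hE]; abel
    rw [e]
    calc rg_norm (E + Df - Finsupp.single P₀ (g : ℤ))
        ≤ rg_norm (E + Df) + rg_norm (Finsupp.single P₀ (g : ℤ)) := rg_norm_sub_le _ _
      _ = g + g := by rw [hnorm', rg_norm_single, Int.natAbs_natCast]
      _ = 2 * g := by ring

variable {k F' : Type*} [Field k] [Field F'] [Algebra k F']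

/-- **Rigidity for divisors of function fields.**  `Θ₁ Θ₂ : Div(F) →+ Div(F')` bounded by `c` on
the places, equal on a set `S` of divisors generating the principal divisors of `F`; Riemann's
inequality on `F` in the form `hR`.  Then `Θ₁ = Θ₂` on the divisors of degree `0`. -/
theorem rg_eq_on_degZero (Θ₁ Θ₂ : Divisor K F →+ Divisor k F') (c : ℕ)
    (h₁ : ∀ v : Place K F, rg_norm (Θ₁ (Finsupp.single v 1)) ≤ c)
    (h₂ : ∀ v : Place K F, rg_norm (Θ₂ (Finsupp.single v 1)) ≤ c)
    (S : Set (Divisor K F))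
    (hS : Divisor.principal (K := K) (F := F) ≤ AddSubgroup.closure S)
    (hagree : ∀ D ∈ S, Θ₁ D = Θ₂ D)
    (hdeg : ∀ v : Place K F, v.deg = 1) (P₀ : Place K F) (g : ℕ)
    (hprin : ∀ f : F, f ≠ 0 → ∃ Df : Divisor K F,
      (∀ v : Place K F, Df v = v.ord f) ∧ Divisor.degree Df = 0)
    (hR : ∀ E : Divisor K F, Divisor.degree E = g →
      ∃ f : F, f ≠ 0 ∧ ∀ v : Place K F, 0 ≤ E v + v.ord f) :
    ∀ D ∈ Divisor.degZero (K := K) (F := F), Θ₁ D = Θ₂ D :=
  rg_rigidity₂ (Divisor.degZero (K := K) (F := F)) (Divisor.principal (K := K) (F := F))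
    Θ₁ Θ₂ c h₁ h₂ S hS hagree (2 * g) (rg_exists_rep hdeg P₀ g hprin hR)

end Curve

end Fermat.Agent.JT3
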