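/-
JT3, Eichler–Shimura side: the TRANSFER PRINCIPLE.

Let `r` be the place reduction map of `X₀(N)` at `A` (`ReductionInputsModL A N`).  If two bounded
additive maps `Θ₁` on `Div(Q̄(X₀(N)))` and `Θ₂` on `Div(F̃_N)` satisfy
`r_* (Θ₁ (div y)) = Θ₂ (div ȳ)` for every `q`-integral function `y` with `ȳ ≠ 0`, then
`r_* ∘ Θ₁ = Θ₂ ∘ r_*` on all divisors of degree `0`, hence `red ∘ θ₁ = θ₂ ∘ red` on `J₀(N)`.
Input: Riemann's inequality on `Q̄(X₀(N))` (`est_Riemann`), used through the rigidity lemma.
-/
import Mathlib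
import Fermat.Agent.JT3.ES.Rigidity
import Fermat.Agent.JT3.S18Glue

set_option autoImplicit false
set_option synthInstance.maxHeartbeats 400000
set_option maxHeartbeats 1000000

noncomputable section

namespace Fermat.Agent.JT3

open ModularCurve AlgebraicCurve HahnSeries

/-- the Riemann package of a function field: places of degree one, divisors of functions of
degree `0`, Riemann's inequality in the form "every divisor of degree `g` is linearly equivalent to
an effective one". -/
structure est_Riemann (K F : Type*) [Field K] [Field F] [Algebra K F] : Prop where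
  deg_one : ∀ v : Place K F, v.deg = 1
  nonempty : Nonempty (Place K F)
  prin : ∀ f : F, f ≠ 0 → ∃ Df : Divisor K F,
    (∀ v : Place K F, Df v = v.ord f) ∧ Divisor.degree Df = 0
  riemann : ∃ g : ℕ, ∀ E : Divisor K F, Divisor.degree E = g →
    ∃ f : F, f ≠ 0 ∧ ∀ v : Place K F, 0 ≤ E v + v.ord f

variable {A : ValuationSubring (AlgebraicClosure ℚ)} {N : ℕ}

local notation "kA" => IsLocalRing.ResidueField A
local notation "Fb" => modularFunctionFieldBar N
local notation "Ft" => modularFunctionFieldFullC (IsLocalRing.ResidueField A) N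

/-- **Transfer, divisor level.** -/
theorem est_transfer (h : ReductionInputsModL A N)
    (hR : est_Riemann (AlgebraicClosure ℚ) (modularFunctionFieldBar N))
    (Θ₁ : Divisor (AlgebraicClosure ℚ) (modularFunctionFieldBar N) →+
      Divisor (AlgebraicClosure ℚ) (modularFunctionFieldBar N))
    (Θ₂ : Divisor (IsLocalRing.ResidueField A)
        (modularFunctionFieldFullC (IsLocalRing.ResidueField A) N) →+
      Divisor (IsLocalRing.ResidueField A)
        (modularFunctionFieldFullC (IsLocalRing.ResidueField A) N))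
    (c : ℕ)
    (h₁ : ∀ v, rg_norm (Θ₁ (Finsupp.single v 1)) ≤ c)
    (h₂ : ∀ w, rg_norm (Θ₂ (Finsupp.single w 1)) ≤ c)
    (hS : ∀ (y : jt_IntFun A N)
      (D : Divisor (AlgebraicClosure ℚ) (modularFunctionFieldBar N))
      (E : Divisor (IsLocalRing.ResidueField A)
        (modularFunctionFieldFullC (IsLocalRing.ResidueField A) N)),
      (∀ P, D P = P.ord (jt_gen y)) → (∀ Q, E Q = Q.ord (jt_red y)) →
        Finsupp.mapDomain (placeReductionModL h) (Θ₁ D) = Θ₂ E) :
    ∀ D ∈ Divisor.degZero (K := AlgebraicClosure ℚ) (F := modularFunctionFieldBar N),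
      Finsupp.mapDomain (placeReductionModL h) (Θ₁ D)
        = Θ₂ (Finsupp.mapDomain (placeReductionModL h) D) := by
  set r := placeReductionModL h with hr
  have hrp : IsPlaceReductionModL A N r := isPlaceReductionModL_placeReductionModL h
  have hgen : PrincipalGeneratedByIntegral A (IsLocalRing.residue A) N := h.choose_spec.2
  obtain ⟨g, hg⟩ := hR.riemann
  obtain ⟨P₀⟩ := hR.nonempty
  have key := rg_eq_on_degZero
    ((Finsupp.mapDomain.addMonoidHom r).comp Θ₁) (Θ₂.comp (Finsupp.mapDomain.addMonoidHom r)) c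
    (fun v => by
      rw [AddMonoidHom.comp_apply, Finsupp.mapDomain.addMonoidHom_apply]
      exact (rg_norm_mapDomain_le r _).trans (h₁ v))
    (fun v => by
      rw [AddMonoidHom.comp_apply, Finsupp.mapDomain.addMonoidHom_apply,
        Finsupp.mapDomain_single]
      exact h₂ _)
    (integralPrincipalDivisors A (IsLocalRing.residue A) N) hgen
    (by
      rintro D ⟨y, hy, hyk, hne, hDy⟩
      rw [AddMonoidHom.comp_apply, AddMonoidHom.comp_apply, Finsupp.mapDomain.addMonoidHom_apply,
        Finsupp.mapDomain.addMonoidHom_apply]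
      have hE : ∀ Q, Finsupp.mapDomain r D Q
          = Q.ord (jt_red (⟨y, hy, hyk, hne⟩ : jt_IntFun A N)) :=
        fun Q => hrp.2 y hy hyk hne D hDy Q
      exact hS ⟨y, hy, hyk, hne⟩ D (Finsupp.mapDomain r D) hDy hE)
    hR.deg_one P₀ g hR.prin hg
  intro D hD
  have := key D hD
  simpa [AddMonoidHom.comp_apply, Finsupp.mapDomain.addMonoidHom_apply] using this

/-- **Transfer, Jacobian level.**  `θ₁` on `J₀(N)` induced by `Θ₁`, `θ₂` on `Pic⁰(F̃_N)` induced by
`Θ₂`: then `red ∘ θ₁ = θ₂ ∘ red`. -/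
theorem est_transfer_pic0 (h : ReductionInputsModL A N)
    (hR : est_Riemann (AlgebraicClosure ℚ) (modularFunctionFieldBar N))
    (Θ₁ : Divisor (AlgebraicClosure ℚ) (modularFunctionFieldBar N) →+
      Divisor (AlgebraicClosure ℚ) (modularFunctionFieldBar N))
    (Θ₂ : Divisor (IsLocalRing.ResidueField A)
        (modularFunctionFieldFullC (IsLocalRing.ResidueField A) N) →+
      Divisor (IsLocalRing.ResidueField A)
        (modularFunctionFieldFullC (IsLocalRing.ResidueField A) N))
    (c : ℕ)
    (h₁ : ∀ v, rg_norm (Θ₁ (Finsupp.single v 1)) ≤ c)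
    (h₂ : ∀ w, rg_norm (Θ₂ (Finsupp.single w 1)) ≤ c)
    (hS : ∀ (y : jt_IntFun A N)
      (D : Divisor (AlgebraicClosure ℚ) (modularFunctionFieldBar N))
      (E : Divisor (IsLocalRing.ResidueField A)
        (modularFunctionFieldFullC (IsLocalRing.ResidueField A) N)),
      (∀ P, D P = P.ord (jt_gen y)) → (∀ Q, E Q = Q.ord (jt_red y)) →
        Finsupp.mapDomain (placeReductionModL h) (Θ₁ D) = Θ₂ E)
    (θ₁ : JZero N →+ JZero N)
    (hθ₁ : ∀ D : Divisor.degZero (K := AlgebraicClosure ℚ) (F := modularFunctionFieldBar N),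
      ∃ h' : Θ₁ (D : Divisor _ _) ∈ Divisor.degZero (K := AlgebraicClosure ℚ)
          (F := modularFunctionFieldBar N),
        θ₁ (Pic0.mk D) = Pic0.mk ⟨Θ₁ D, h'⟩)
    (θ₂ : JZeroC (IsLocalRing.ResidueField A) N →+ JZeroC (IsLocalRing.ResidueField A) N)
    (hθ₂ : ∀ E : Divisor.degZero (K := IsLocalRing.ResidueField A)
        (F := modularFunctionFieldFullC (IsLocalRing.ResidueField A) N),
      ∃ h' : Θ₂ (E : Divisor _ _) ∈ Divisor.degZero (K := IsLocalRing.ResidueField A)
          (F := modularFunctionFieldFullC (IsLocalRing.ResidueField A) N),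
        θ₂ (Pic0.mk E) = Pic0.mk ⟨Θ₂ E, h'⟩)
    (x : JZero N) :
    reductionModL A N (θ₁ x) = θ₂ (reductionModL A N x) := by
  obtain ⟨D, rfl⟩ := Pic0.mk_surjective x
  obtain ⟨h1, e1⟩ := hθ₁ D
  rw [e1, reductionModL_mk h, reductionModL_mk h]
  obtain ⟨h2, e2⟩ := hθ₂ (reductionDegZeroAlong (placeReductionModL h)
    (isPlaceReductionModL_placeReductionModL h).1 D)
  rw [e2]
  congr 1
  apply Subtype.ext
  rw [coe_reductionDegZeroAlong]
  exact est_transfer h hR Θ₁ Θ₂ c h₁ h₂ hS D D.2

end Fermat.Agent.JT3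

end
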