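/-
JT3, Eichler–Shimura side: THE GALOIS ACTION COMMUTES WITH THE HECKE CORRESPONDENCES.

Generic part: `φ : F →ₐ[K] F'` integral, `g`, `g'` semilinear automorphisms of `F`, `F'` with
`SemilinearAut.IntertwinesAlong φ g g'`.  Then restriction of places, ramification indices,
inertia degrees, pull-back and push-forward of divisors are equivariant, hence so is every
correspondence `ψ_* φ^*` (both `φ`, `ψ` intertwined).

Modular part: the coefficientwise Galois action `arithmeticGalois` at levels `N`, `N q` intertwines
both degeneracy maps, so `σ • T_q x = T_q (σ • x)` on `J₀(N)` for every prime `q`.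
-/
import Mathlib
import Fermat.Prelude.Def_ModularCurve_HeckeModule
import Fermat.Agent.JT3.Hecke.InputsBar
import Fermat.Agent.JT3.Riemann.FBar

set_option autoImplicit false
set_option linter.style.haveILetI false
set_option linter.unusedSectionVars false

noncomputable section

namespace Fermat.Agent.JT3

open ModularCurve AlgebraicCurve
open scoped Pointwise

section Generic

variable {K F F' : Type*} [Field K] [Field F] [Field F'] [Algebra K F] [Algebra K F']
variable {φ : F →ₐ[K] F'} (hφ : φ.toRingHom.IsIntegral)
variable {g : SemilinearAut K F} {g' : SemilinearAut K F'}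

include hφ

/-- restriction of places is equivariant -/
theorem egh_restrictAlong_smul (h : SemilinearAut.IntertwinesAlong (φ : F →+* F') g g')
    (w : Place K F') :
    (g' • w).restrictAlong φ hφ = g • (w.restrictAlong φ hφ) := by
  have hinv := h.inv
  apply Place.ext
  ext x
  letI := algebraAlong φ
  haveI := isScalarTower_along φ
  haveI := isIntegral_along φ hφ
  show x ∈ ((g' • w).restrict F).toValuationSubring ↔ x ∈ g • (w.restrict F).toValuationSubring
  rw [Place.mem_restrict_iff, SemilinearAut.smul_toValuationSubring,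
    ValuationSubring.mem_pointwise_smul_iff_inv_smul_mem,
    ValuationSubring.mem_pointwise_smul_iff_inv_smul_mem, Place.mem_restrict_iff]
  have e : g'⁻¹ • (algebraMap F F' x) = algebraMap F F' (g⁻¹ • x) := hinv x
  rw [e]

/-- ramification indices are invariant -/
theorem egh_ramificationIndexAlong_smul (h : SemilinearAut.IntertwinesAlong (φ : F →+* F') g g')
    (w : Place K F') :
    Place.ramificationIndexAlong φ (g' • w) = Place.ramificationIndexAlong φ w := by
  obtain ⟨π, hπ⟩ := IsDiscreteValuationRing.exists_irreducible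
    (w.restrictAlong φ hφ).toValuationSubring
  have h1 : (w.restrictAlong φ hφ).ord (π : F) = 1 := Place.ord_coe_irreducible _ hπ
  have e1 := Place.ord_restrictAlong φ hφ w (π : F)
  rw [h1, mul_one] at e1
  have e2 := Place.ord_restrictAlong φ hφ (g' • w) (g • (π : F))
  rw [egh_restrictAlong_smul hφ h w, SemilinearAut.ord_smul, h1, mul_one] at e2
  have e3 : (g' • w).ord (φ (g • (π : F))) = w.ord (φ (π : F)) := by
    have : φ (g • (π : F)) = g' • φ (π : F) := (h (π : F)).symm
    rw [this, SemilinearAut.ord_smul]
  have : (Place.ramificationIndexAlong φ (g' • w) : ℤ) = Place.ramificationIndexAlong φ w := by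
    rw [← e2, ← e1, e3]
  exact_mod_cast this

/-- inertia degrees are invariant (places of nonzero degree) -/
theorem egh_inertiaDegAlong_smul (h : SemilinearAut.IntertwinesAlong (φ : F →+* F') g g')
    (hdeg : ∀ v : Place K F, v.deg ≠ 0) (w : Place K F') :
    Place.inertiaDegAlong φ hφ (g' • w) = Place.inertiaDegAlong φ hφ w := by
  have h1 : (w.restrictAlong φ hφ).deg * Place.inertiaDegAlong φ hφ w = w.deg := by
    letI := algebraAlong φ
    haveI := isScalarTower_along φ
    haveI := isIntegral_along φ hφ
    exact Place.deg_restrict_mul_inertiaDeg (F := F) w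
  have h2 : ((g' • w).restrictAlong φ hφ).deg * Place.inertiaDegAlong φ hφ (g' • w)
      = (g' • w).deg := by
    letI := algebraAlong φ
    haveI := isScalarTower_along φ
    haveI := isIntegral_along φ hφ
    exact Place.deg_restrict_mul_inertiaDeg (F := F) (g' • w)
  rw [egh_restrictAlong_smul hφ h w, SemilinearAut.deg_smul, SemilinearAut.deg_smul, ← h1] at h2
  exact Nat.eq_of_mul_eq_mul_left (Nat.pos_of_ne_zero (hdeg _)) h2

/-- pull-back of divisors is equivariant -/
theorem egh_pullbackAlong_smul [HasPrincipalDivisors K F']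
    (h : SemilinearAut.IntertwinesAlong (φ : F →+* F') g g') (D : Divisor K F) :
    Divisor.pullbackAlong φ hφ (g • D) = g' • Divisor.pullbackAlong φ hφ D := by
  ext w
  rw [Divisor.pullbackAlong_apply, SemilinearAut.divisor_smul_apply,
    SemilinearAut.divisor_smul_apply, Divisor.pullbackAlong_apply,
    egh_restrictAlong_smul hφ h.inv w, egh_ramificationIndexAlong_smul hφ h.inv w]

/-- push-forward of divisors is equivariant -/
theorem egh_pushforwardAlong_smul (h : SemilinearAut.IntertwinesAlong (φ : F →+* F') g g')
    (hdeg : ∀ v : Place K F, v.deg ≠ 0) (D : Divisor K F') :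
    Divisor.pushforwardAlong φ hφ (g' • D) = g • Divisor.pushforwardAlong φ hφ D := by
  have key : (Divisor.pushforwardAlong φ hφ).comp
        (DistribSMul.toAddMonoidHom (Divisor K F') g')
      = (DistribSMul.toAddMonoidHom (Divisor K F) g).comp (Divisor.pushforwardAlong φ hφ) := by
    refine Finsupp.addHom_ext fun w n => ?_
    simp only [AddMonoidHom.comp_apply, DistribSMul.toAddMonoidHom_apply]
    rw [SemilinearAut.smul_single, Divisor.pushforwardAlong_single,
      Divisor.pushforwardAlong_single, SemilinearAut.smul_single,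
      egh_restrictAlong_smul hφ h w, egh_inertiaDegAlong_smul hφ h hdeg w]
  exact DFunLike.congr_fun key D

/-- **correspondences are equivariant** -/
theorem egh_correspondence_smul [HasPrincipalDivisors K F'] {ψ : F →ₐ[K] F'}
    (hψ : ψ.toRingHom.IsIntegral)
    (h : SemilinearAut.IntertwinesAlong (φ : F →+* F') g g')
    (h' : SemilinearAut.IntertwinesAlong (ψ : F →+* F') g g')
    (hdeg : ∀ v : Place K F, v.deg ≠ 0) (D : Divisor K F) :
    Divisor.correspondence φ ψ hφ hψ (g • D) = g • Divisor.correspondence φ ψ hφ hψ D := by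
  rw [Divisor.correspondence_apply, Divisor.correspondence_apply, egh_pullbackAlong_smul hφ h,
    egh_pushforwardAlong_smul hψ h' hdeg]

end Generic

/-! ### the modular instance -/

section Modular

local notation "Qbar" => AlgebraicClosure ℚ

variable (N q : ℕ) [NeZero N] [NeZero q]

/-- the coefficientwise Galois action commutes with the inclusion `F̄_N ⊆ F̄_{Nq}` -/
theorem egh_intertwines_alpha (σ : Qbar ≃ₐ[ℚ] Qbar) :
    SemilinearAut.IntertwinesAlong
      ((heckeAlphaBar Qbar N q : modularFunctionFieldBar N →ₐ[Qbar] modularFunctionFieldBar (N * q)) :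
        modularFunctionFieldBar N →+* modularFunctionFieldBar (N * q))
      (arithmeticGalois (modularFunctionFieldFull N) σ)
      (arithmeticGalois (modularFunctionFieldFull (N * q)) σ) := by
  intro x
  apply Subtype.ext
  show coeffMap (σ : Qbar →+* Qbar)
      ((heckeAlphaBar Qbar N q x : modularFunctionFieldBar (N * q)) : LaurentSeries Qbar)
    = ((heckeAlphaBar Qbar N q (arithmeticGalois (modularFunctionFieldFull N) σ • x) :
        modularFunctionFieldBar (N * q)) : LaurentSeries Qbar)
  rw [coe_heckeAlphaBar, coe_heckeAlphaBar, coe_arithmeticGalois_smul]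

/-- the coefficientwise Galois action commutes with `q ↦ q^q` -/
theorem egh_intertwines_beta (σ : Qbar ≃ₐ[ℚ] Qbar) :
    SemilinearAut.IntertwinesAlong
      ((heckeBetaBar Qbar N q : modularFunctionFieldBar N →ₐ[Qbar] modularFunctionFieldBar (N * q)) :
        modularFunctionFieldBar N →+* modularFunctionFieldBar (N * q))
      (arithmeticGalois (modularFunctionFieldFull N) σ)
      (arithmeticGalois (modularFunctionFieldFull (N * q)) σ) := by
  intro x
  apply Subtype.ext
  show coeffMap (σ : Qbar →+* Qbar)
      ((heckeBetaBar Qbar N q x : modularFunctionFieldBar (N * q)) : LaurentSeries Qbar)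
    = ((heckeBetaBar Qbar N q (arithmeticGalois (modularFunctionFieldFull N) σ • x) :
        modularFunctionFieldBar (N * q)) : LaurentSeries Qbar)
  rw [coe_heckeBetaBar, coe_heckeBetaBar, coe_arithmeticGalois_smul, coeffMap_qExpand]

end Modular

section Main

local notation "Qbar" => AlgebraicClosure ℚ

variable (N : ℕ) [NeZero N]

/-- the Galois action commutes with `T_q = α_* β^*` (any `q ≠ 0`) -/
theorem egh_comm_along (q : ℕ) [NeZero q] (σ : Qbar ≃ₐ[ℚ] Qbar) (x : JZero N) :
    σ • heckeOperatorAlong Qbar N q x = heckeOperatorAlong Qbar N q (σ • x) := by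
  obtain ⟨hα, hβ, hP, hfin, hFI, hN⟩ := hib_heckeInputsAlong N q
  haveI := hP
  rw [heckeOperatorAlong_eq hα hβ hFI hfin hN]
  obtain ⟨D, rfl⟩ := Pic0.mk_surjective x
  have hdeg : ∀ v : Place Qbar (modularFunctionFieldBar N), v.deg ≠ 0 := fun v => by
    rw [rt_deg_eq_one (rt_isSepGen_jBar N) v]
    exact one_ne_zero
  set G := arithmeticGalois (L := Qbar) (modularFunctionFieldFull N) σ with hG
  show G • heckePic0Bar hα hβ hFI hfin hN (Pic0.mk D)
    = heckePic0Bar hα hβ hFI hfin hN (G • Pic0.mk D)
  rw [SemilinearAut.pic0_smul_mk]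
  show G • Pic0.mk (Pic0.degZeroCorrespondence _ _ hβ hα hFI D)
    = Pic0.mk (Pic0.degZeroCorrespondence _ _ hβ hα hFI (SemilinearAut.degZeroSMulHom G D))
  rw [SemilinearAut.pic0_smul_mk]
  congr 1
  apply Subtype.ext
  show G • (Divisor.correspondence _ _ hβ hα (D : Divisor Qbar (modularFunctionFieldBar N)))
    = Divisor.correspondence _ _ hβ hα (G • (D : Divisor Qbar (modularFunctionFieldBar N)))
  exact (egh_correspondence_smul hβ hα (egh_intertwines_beta N q σ)
    (egh_intertwines_alpha N q σ) hdeg (D : Divisor Qbar (modularFunctionFieldBar N))).symm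

/-- **the Galois action on `J₀(N)` commutes with every Hecke operator `T_q`** -/
theorem egh_comm (q : Nat.Primes) (σ : Qbar ≃ₐ[ℚ] Qbar) (x : JZero N) :
    σ • heckeOperatorBar N q x = heckeOperatorBar N q (σ • x) :=
  haveI : NeZero (q : ℕ) := ⟨q.2.ne_zero⟩
  egh_comm_along N (q : ℕ) σ x

/-- the `SMulCommClass` hypothesis of S37 holds -/
theorem egh_smulCommClass (hcomm : HeckeOperatorsCommuteBar N) :
    letI := heckeModuleBar N
    SMulCommClass (Qbar ≃ₐ[ℚ] Qbar) HeckeAlg (JZero N) := by
  letI := heckeModuleBar N
  refine ⟨fun σ T x => ?_⟩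
  rw [heckeModuleBar_smul_def hcomm, heckeModuleBar_smul_def hcomm]
  induction T using MvPolynomial.induction_on generalizing x with
  | C a =>
    rw [heckeEvalBar_C, Module.End.intCast_apply, Module.End.intCast_apply]
    exact map_zsmul (DistribSMul.toAddMonoidHom (JZero N) σ) a x
  | add f g hf hg =>
    rw [map_add, LinearMap.add_apply, LinearMap.add_apply, smul_add, hf, hg]
  | mul_X f r hf =>
    rw [map_mul, Module.End.mul_apply, Module.End.mul_apply]
    have : heckeEvalBar hcomm (MvPolynomial.X r) = heckeOperatorBar N r :=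
      heckeEvalBar_heckeGen hcomm r
    rw [this, hf, egh_comm]

end Main

end Fermat.Agent.JT3

end
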