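/-
JT3, Eichler–Shimura side: COEFFICIENTWISE AUTOMORPHISMS of the reduced function field.

For a field `K`, a ring automorphism `φ` of `K` acts coefficientwise on `K((q))` and preserves
`modularFunctionFieldFullC K N = K(j(q^d) : d ∣ N)` (the generators have coefficients in the prime
ring).  This gives `ca_aut : (K ≃+* K) →* SemilinearAut K (modularFunctionFieldFullC K N)` and
hence actions on places, divisors and `Pic⁰` (prelude `SemilinearAut` API).
Also: the Frobenius identity `x ^ ℓ = (Frob x)(q^ℓ)` in characteristic `ℓ`.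
-/
import Mathlib
import Fermat.Prelude.Def_ModularCurve_X0ModL
import Fermat.Prelude.Def_AlgebraicCurve_BaseChangeGalois
import Fermat.Agent.JT.Kronecker

set_option autoImplicit false

noncomputable section

namespace Fermat.Agent.JT3

open ModularCurve AlgebraicCurve HahnSeries IntermediateField

section Aut

variable (K : Type*) [Field K] (N : ℕ)

theorem ca_coeffMap_gen (φ : K →+* K) (d : ℕ) [NeZero d] :
    coeffMap φ (qExpand K d (jqModC K)) = qExpand K d (jqModC K) := by
  rw [coeffMap_qExpand, coeffMap_jqModC]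

theorem ca_coeffMap_algebraMap (φ : K →+* K) (a : K) :
    coeffMap φ (algebraMap K (LaurentSeries K) a) = algebraMap K (LaurentSeries K) (φ a) := by
  rw [algebraMap_laurentSeries_eq_single, coeffMap_single, algebraMap_laurentSeries_eq_single]

variable {K N} in
theorem ca_mem (φ : K →+* K) {x : LaurentSeries K} (hx : x ∈ modularFunctionFieldFullC K N) :
    coeffMap φ x ∈ modularFunctionFieldFullC K N := by
  rw [modularFunctionFieldFullC] at hx
  induction hx using IntermediateField.adjoin_induction with
  | mem y hy =>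
    obtain ⟨d, hd, hdN, rfl⟩ := hy
    rw [ca_coeffMap_gen]
    exact jqModCd_mem_full K N hdN
  | algebraMap a =>
    rw [ca_coeffMap_algebraMap]
    exact (modularFunctionFieldFullC K N).algebraMap_mem _
  | add x y _ _ hx hy => rw [map_add]; exact add_mem hx hy
  | inv x _ hx => rw [map_inv₀]; exact inv_mem hx
  | mul x y _ _ hx hy => rw [map_mul]; exact mul_mem hx hy

/-- the coefficientwise ring automorphism of `F̃_N` -/
def ca_ringAut (φ : K ≃+* K) :
    modularFunctionFieldFullC K N ≃+* modularFunctionFieldFullC K N where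
  toFun x := ⟨coeffMap (φ : K →+* K) (x : LaurentSeries K), ca_mem _ x.2⟩
  invFun x := ⟨coeffMap (φ.symm : K →+* K) (x : LaurentSeries K), ca_mem _ x.2⟩
  left_inv x := Subtype.ext <| by
    show coeffMap (φ.symm : K →+* K) (coeffMap (φ : K →+* K) (x : LaurentSeries K))
      = (x : LaurentSeries K)
    rw [coeffMap_coeffMap,
      coeffMap_congr (g := RingHom.id K) (RingHom.ext fun a => φ.symm_apply_apply a)
        (x : LaurentSeries K), coeffMap_id]
  right_inv x := Subtype.ext <| by
    show coeffMap (φ : K →+* K) (coeffMap (φ.symm : K →+* K) (x : LaurentSeries K))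
      = (x : LaurentSeries K)
    rw [coeffMap_coeffMap,
      coeffMap_congr (g := RingHom.id K) (RingHom.ext fun a => φ.apply_symm_apply a)
        (x : LaurentSeries K), coeffMap_id]
  map_mul' x y :=
    Subtype.ext (map_mul (coeffMap (φ : K →+* K)) (x : LaurentSeries K) (y : LaurentSeries K))
  map_add' x y :=
    Subtype.ext (map_add (coeffMap (φ : K →+* K)) (x : LaurentSeries K) (y : LaurentSeries K))

@[simp]
theorem ca_coe_ringAut_apply (φ : K ≃+* K) (x : modularFunctionFieldFullC K N) :
    (ca_ringAut K N φ x : LaurentSeries K) = coeffMap (φ : K →+* K) (x : LaurentSeries K) :=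
  rfl

theorem ca_ringAut_algebraMap (φ : K ≃+* K) (a : K) :
    ca_ringAut K N φ (algebraMap K (modularFunctionFieldFullC K N) a)
      = algebraMap K (modularFunctionFieldFullC K N) (φ a) :=
  Subtype.ext (ca_coeffMap_algebraMap K (φ : K →+* K) a)

/-- **the coefficientwise action** of `Aut(K)` on `F̃_N`, as semilinear automorphisms -/
def ca_aut : (K ≃+* K) →* SemilinearAut K (modularFunctionFieldFullC K N) where
  toFun φ := ⟨(ca_ringAut K N φ, φ), fun a => ca_ringAut_algebraMap K N φ a⟩
  map_one' := by
    refine Subtype.ext (Prod.ext (RingEquiv.ext fun x => Subtype.ext ?_) rfl)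
    show coeffMap ((1 : K ≃+* K) : K →+* K) (x : LaurentSeries K) = (x : LaurentSeries K)
    rw [show ((1 : K ≃+* K) : K →+* K) = RingHom.id K from RingHom.ext fun _ => rfl,
      coeffMap_id]
  map_mul' φ ψ := by
    refine Subtype.ext (Prod.ext (RingEquiv.ext fun x => Subtype.ext ?_) rfl)
    show coeffMap ((φ * ψ : K ≃+* K) : K →+* K) (x : LaurentSeries K)
      = coeffMap (φ : K →+* K) (coeffMap (ψ : K →+* K) (x : LaurentSeries K))
    rw [coeffMap_coeffMap]
    exact coeffMap_congr (RingHom.ext fun _ => rfl) _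

@[simp]
theorem ca_coe_aut_smul (φ : K ≃+* K) (x : modularFunctionFieldFullC K N) :
    ((ca_aut K N φ • x : modularFunctionFieldFullC K N) : LaurentSeries K)
      = coeffMap (φ : K →+* K) (x : LaurentSeries K) :=
  rfl

@[simp]
theorem ca_baseAut (φ : K ≃+* K) : SemilinearAut.baseAut (ca_aut K N φ) = φ := rfl

end Aut

/-! ### the Frobenius identity -/

section Frob

variable (k : Type*) [Field k] (ℓ : ℕ) [hℓ : Fact ℓ.Prime] [CharP k ℓ]

/-- `x ^ ℓ = (Frob x)(q^ℓ)` for Laurent series in characteristic `ℓ` -/
theorem ca_pow_eq_qExpand_frobenius (x : LaurentSeries k) :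
    haveI : NeZero ℓ := ⟨hℓ.out.ne_zero⟩
    x ^ ℓ = qExpand k ℓ (coeffMap (frobenius k ℓ) x) := by
  have : NeZero ℓ := ⟨hℓ.out.ne_zero⟩
  have : ExpChar k ℓ := ExpChar.prime hℓ.out
  rcases eq_or_ne x 0 with rfl | hx
  · rw [zero_pow hℓ.out.ne_zero, map_zero, map_zero]
  have hdec : x = HahnSeries.single x.order 1 * HahnSeries.ofPowerSeries ℤ k x.powerSeriesPart :=
    (LaurentSeries.single_order_mul_powerSeriesPart x).symm
  set P := x.powerSeriesPart with hP
  have h1 : (HahnSeries.ofPowerSeries ℤ k P) ^ ℓ
      = qExpand k ℓ (coeffMap (frobenius k ℓ) (HahnSeries.ofPowerSeries ℤ k P)) := by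
    rw [coeffMap_ofPowerSeries, ← Fermat.Agent.JT.kc_ofPowerSeries_expand, ← map_pow]
    congr 1
    have h := MvPowerSeries.map_frobenius_expand (σ := Unit) ℓ hℓ.out.ne_zero (f := P)
    rw [← h]
    change PowerSeries.map (frobenius k ℓ) (P.expand ℓ hℓ.out.ne_zero) = _
    rw [PowerSeries.map_expand]
  have h2 : (HahnSeries.single x.order (1 : k)) ^ ℓ
      = qExpand k ℓ (coeffMap (frobenius k ℓ) (HahnSeries.single x.order (1 : k))) := by
    rw [coeffMap_single, RingHom.map_one, qExpand_single, HahnSeries.single_pow, one_pow,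
      nsmul_eq_mul]
  conv_lhs => rw [hdec, mul_pow, h1, h2]
  rw [← map_mul, ← map_mul, ← hdec]

end Frob

end Fermat.Agent.JT3

end
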