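/-
JT3, Eichler–Shimura side: GALOIS EQUIVARIANCE OF THE REDUCTION MAP.

For `σ` in the decomposition group of `A`, with induced automorphism `φ_σ` of the residue field:
`red (σ • x) = φ_σ • red x` on `J₀(N)` (coefficientwise action on `Pic⁰(F̃_N)`), by the transfer
principle.  Consequences: inertia acts trivially after reduction; a Frobenius element acts as the
coefficientwise Frobenius.
-/
import Mathlib
import Fermat.Agent.JT3.ES.Transfer
import Fermat.Agent.JT3.ES.CoeffAut
import Fermat.Prelude.Def_EllipticCurve_FrobeniusTrace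

set_option autoImplicit false
set_option synthInstance.maxHeartbeats 400000
set_option maxHeartbeats 1000000

noncomputable section

namespace Fermat.Agent.JT3

open ModularCurve AlgebraicCurve HahnSeries

variable {A : ValuationSubring (AlgebraicClosure ℚ)} {N : ℕ}

/-- the automorphism of the residue field induced by an element of the decomposition group -/
def egr_phi (g : A.decompositionSubgroup ℚ) :
    IsLocalRing.ResidueField A ≃+* IsLocalRing.ResidueField A :=
  MulSemiringAction.toRingEquiv (A.decompositionSubgroup ℚ) (IsLocalRing.ResidueField A) g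

@[simp] theorem egr_phi_apply (g : A.decompositionSubgroup ℚ) (x : IsLocalRing.ResidueField A) :
    egr_phi g x = g • x := rfl

theorem egr_phi_residue (g : A.decompositionSubgroup ℚ) (a : A) :
    egr_phi g (IsLocalRing.residue A a) = IsLocalRing.residue A (g • a) := rfl

theorem egr_coe_smul (g : A.decompositionSubgroup ℚ) (a : A) :
    ((g • a : A) : AlgebraicClosure ℚ) = (g : AlgebraicClosure ℚ ≃ₐ[ℚ] AlgebraicClosure ℚ) (a : _) :=
  rfl

/-- the coefficientwise action of the decomposition group on `A((q))` -/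
def egr_actSeries (g : A.decompositionSubgroup ℚ) : LaurentSeries A →+* LaurentSeries A :=
  coeffMap (MulSemiringAction.toRingHom (A.decompositionSubgroup ℚ) A g)

theorem egr_subtype_actSeries (g : A.decompositionSubgroup ℚ) (y : LaurentSeries A) :
    coeffMap A.subtype (egr_actSeries g y)
      = coeffMap (((g : AlgebraicClosure ℚ ≃ₐ[ℚ] AlgebraicClosure ℚ)) :
          AlgebraicClosure ℚ →+* AlgebraicClosure ℚ) (coeffMap A.subtype y) := by
  rw [egr_actSeries, coeffMap_coeffMap, coeffMap_coeffMap]
  exact coeffMap_congr (RingHom.ext fun a => rfl) y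

theorem egr_residue_actSeries (g : A.decompositionSubgroup ℚ) (y : LaurentSeries A) :
    coeffMap (IsLocalRing.residue A) (egr_actSeries g y)
      = coeffMap ((egr_phi g : IsLocalRing.ResidueField A ≃+* IsLocalRing.ResidueField A) :
          IsLocalRing.ResidueField A →+* IsLocalRing.ResidueField A)
        (coeffMap (IsLocalRing.residue A) y) := by
  rw [egr_actSeries, coeffMap_coeffMap, coeffMap_coeffMap]
  exact coeffMap_congr (RingHom.ext fun a => rfl) y

theorem egr_coeffMap_equiv_ne_zero {K : Type*} [Field K] (φ : K ≃+* K) {x : LaurentSeries K}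
    (hx : x ≠ 0) : coeffMap (φ : K →+* K) x ≠ 0 := by
  intro h
  apply hx
  have := congrArg (coeffMap (φ.symm : K →+* K)) h
  rwa [coeffMap_coeffMap, map_zero,
    coeffMap_congr (g := RingHom.id K) (RingHom.ext fun a => φ.symm_apply_apply a) x,
    coeffMap_id] at this

/-- the decomposition group acts on the `q`-integral functions -/
def egr_act (g : A.decompositionSubgroup ℚ) (y : jt_IntFun A N) : jt_IntFun A N :=
  ⟨egr_actSeries g y.1, by
    rw [egr_subtype_actSeries]
    exact coeffMap_mem_laurentBaseChange _ y.2.1, by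
    rw [egr_residue_actSeries]
    exact ca_mem _ y.2.2.1, by
    rw [egr_residue_actSeries]
    exact egr_coeffMap_equiv_ne_zero _ y.2.2.2⟩

theorem egr_gen_act (g : A.decompositionSubgroup ℚ) (y : jt_IntFun A N) :
    jt_gen (egr_act g y)
      = arithmeticGalois (modularFunctionFieldFull N)
          (g : AlgebraicClosure ℚ ≃ₐ[ℚ] AlgebraicClosure ℚ) • jt_gen y :=
  Subtype.ext (egr_subtype_actSeries g y.1)

theorem egr_red_act (g : A.decompositionSubgroup ℚ) (y : jt_IntFun A N) :
    jt_red (egr_act g y) = ca_aut (IsLocalRing.ResidueField A) N (egr_phi g) • jt_red y :=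
  Subtype.ext (egr_residue_actSeries g y.1)

/-- divisor of `g • f` -/
theorem egr_div_smul {K F : Type*} [Field K] [Field F] [Algebra K F] (g : SemilinearAut K F)
    (f : F) (D : Divisor K F) (hD : ∀ P, D P = P.ord f) (P : Place K F) :
    (g • D) P = P.ord (g • f) := by
  rw [SemilinearAut.divisor_smul_apply, hD]
  have h := SemilinearAut.ord_smul g (g⁻¹ • P) f
  rw [smul_inv_smul] at h
  exact h.symm

theorem egr_norm_smul_single {K F : Type*} [Field K] [Field F] [Algebra K F]
    (g : SemilinearAut K F) (v : Place K F) :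
    rg_norm ((DistribSMul.toAddMonoidHom (Divisor K F) g) (Finsupp.single v 1)) ≤ 1 := by
  show rg_norm (g • Finsupp.single v (1 : ℤ)) ≤ 1
  rw [SemilinearAut.smul_single, rg_norm_single]
  simp

/-- **Galois equivariance of the reduction map.** -/
theorem egr_red_smul (h : ReductionInputsModL A N)
    (hR : est_Riemann (AlgebraicClosure ℚ) (modularFunctionFieldBar N))
    (g : A.decompositionSubgroup ℚ) (x : JZero N) :
    reductionModL A N ((g : AlgebraicClosure ℚ ≃ₐ[ℚ] AlgebraicClosure ℚ) • x)
      = ca_aut (IsLocalRing.ResidueField A) N (egr_phi g) • reductionModL A N x := by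
  set G₁ := arithmeticGalois (L := AlgebraicClosure ℚ) (modularFunctionFieldFull N)
    (g : AlgebraicClosure ℚ ≃ₐ[ℚ] AlgebraicClosure ℚ) with hG₁
  set G₂ := ca_aut (IsLocalRing.ResidueField A) N (egr_phi g) with hG₂
  have key := est_transfer_pic0 h hR
    (DistribSMul.toAddMonoidHom (Divisor (AlgebraicClosure ℚ) (modularFunctionFieldBar N)) G₁)
    (DistribSMul.toAddMonoidHom (Divisor (IsLocalRing.ResidueField A)
      (modularFunctionFieldFullC (IsLocalRing.ResidueField A) N)) G₂) 1
    (egr_norm_smul_single G₁) (egr_norm_smul_single G₂)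
    (by
      intro y D E hD hE
      ext Q
      show Finsupp.mapDomain (placeReductionModL h) (G₁ • D) Q = (G₂ • E) Q
      have hD' : ∀ P, (G₁ • D) P = P.ord (jt_gen (egr_act g y)) := by
        intro P
        rw [egr_gen_act]
        exact egr_div_smul G₁ (jt_gen y) D hD P
      have h1 := (isPlaceReductionModL_placeReductionModL h).2 (egr_act g y).1 (egr_act g y).2.1
        (egr_act g y).2.2.1 (egr_act g y).2.2.2 (G₁ • D) hD' Q
      rw [h1]
      have h2 := egr_div_smul G₂ (jt_red y) E hE Q
      rw [h2, ← egr_red_act]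
      rfl)
    (DistribSMul.toAddMonoidHom (JZero N) (g : AlgebraicClosure ℚ ≃ₐ[ℚ] AlgebraicClosure ℚ))
    (fun D => ⟨SemilinearAut.smul_mem_degZero G₁ D.2, rfl⟩)
    (DistribSMul.toAddMonoidHom (JZeroC (IsLocalRing.ResidueField A) N) G₂)
    (fun E => ⟨SemilinearAut.smul_mem_degZero G₂ E.2, rfl⟩) x
  exact key

/-- inertia acts trivially after reduction -/
theorem egr_red_inertia (h : ReductionInputsModL A N)
    (hR : est_Riemann (AlgebraicClosure ℚ) (modularFunctionFieldBar N))
    (τ : AlgebraicClosure ℚ ≃ₐ[ℚ] AlgebraicClosure ℚ) (hτ : τ ∈ A.inertiaSubgroupIn ℚ)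
    (x : JZero N) : reductionModL A N (τ • x) = reductionModL A N x := by
  rw [ValuationSubring.inertiaSubgroupIn, Subgroup.mem_map] at hτ
  obtain ⟨g, hg, rfl⟩ := hτ
  have h1 : egr_phi g = 1 := by
    rw [ValuationSubring.inertiaSubgroup, MonoidHom.mem_ker] at hg
    exact hg
  have := egr_red_smul h hR g x
  rw [h1, map_one, one_smul] at this
  exact this

/-- a Frobenius element acts after reduction through the coefficientwise automorphism `φ` of
`F̃_N`, where `φ x = x ^ ℓ` on the residue field -/
theorem egr_red_frob (h : ReductionInputsModL A N)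
    (hR : est_Riemann (AlgebraicClosure ℚ) (modularFunctionFieldBar N)) {ℓ : ℕ}
    (σ : AlgebraicClosure ℚ ≃ₐ[ℚ] AlgebraicClosure ℚ) (hσ : A.IsFrobeniusAt σ ℓ) (x : JZero N) :
    reductionModL A N (σ • x)
      = ca_aut (IsLocalRing.ResidueField A) N (egr_phi ⟨σ, hσ.mem_decompositionSubgroup⟩)
        • reductionModL A N x :=
  egr_red_smul h hR ⟨σ, hσ.mem_decompositionSubgroup⟩ x

theorem egr_phi_frob {ℓ : ℕ} (σ : AlgebraicClosure ℚ ≃ₐ[ℚ] AlgebraicClosure ℚ)
    (hσ : A.IsFrobeniusAt σ ℓ) (x : IsLocalRing.ResidueField A) :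
    egr_phi ⟨σ, hσ.mem_decompositionSubgroup⟩ x = x ^ ℓ :=
  hσ.smul_residue_eq x

end Fermat.Agent.JT3

end
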