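/-
JT3, Eichler–Shimura side: THE CONGRUENCE RELATION `red ∘ T_ℓ = (Fr + ℓ Fr⁻¹) ∘ red`.

Input: the seam `ese_NL` (node [NL]): for a `q`-integral function `y` with nonzero reduction `ȳ`,
the norm `N_{F̄_{Nℓ}/F̄_N}(y(q^ℓ))` is `q`-integral with reduction `Frob(ȳ) · ȳ(q^ℓ)`
(Kronecker's congruence for functions).  Then, by the prelude's norm formula,
`T_ℓ (div y) = div (nl_normBeta y)`, and the transfer principle `est_transfer_pic0` gives the
relation on `J₀(N)`; with the Galois equivariance of `red` (`egr_red_frob`) this is the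
Eichler–Shimura relation `red (σ₀² x) - red (T_ℓ σ₀ x) + ℓ red x = 0`.
-/
import Mathlib
import Fermat.Agent.JT3.ES.GaloisRed
import Fermat.Agent.JT3.NL.Defs
import Fermat.Prelude.Def_ModularCurve_HeckeModule

set_option autoImplicit false
set_option synthInstance.maxHeartbeats 400000
set_option maxHeartbeats 1000000
set_option linter.style.haveILetI false
set_option linter.unusedSectionVars false

noncomputable section

namespace Fermat.Agent.JT3

open ModularCurve AlgebraicCurve HahnSeries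

/-! ### generic: a correspondence applied to a principal divisor -/

section Generic

variable {K F F' : Type*} [Field K] [Field F] [Field F'] [Algebra K F] [Algebra K F']
  [HasPrincipalDivisors K F']

/-- `ψ_* φ^* (div f) = div (N_ψ (φ f))` -/
theorem ese_correspondence_ord (φ ψ : F →ₐ[K] F') (hφ : φ.toRingHom.IsIntegral)
    (hψ : ψ.toRingHom.IsIntegral) (hfin : FiniteAlong K ψ) (hN : NormFormulaAlong K ψ hfin)
    (f : F) (hf : f ≠ 0) (D : Divisor K F) (hD : ∀ v, D v = v.ord f) (v : Place K F) :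
    Divisor.correspondence φ ψ hφ hψ D v
      = v.ord (letI := algebraAlong ψ; Algebra.norm F (φ f)) := by
  rw [Divisor.correspondence_apply]
  have h1 : ∀ w : Place K F', Divisor.pullbackAlong φ hφ D w = w.ord (φ f) := by
    intro w
    rw [Divisor.pullbackAlong_apply, hD, ← Place.ord_restrictAlong]
  have hφf : φ f ≠ 0 := (map_ne_zero φ).mpr hf
  letI := algebraAlong ψ
  haveI := isScalarTower_along ψ
  haveI := isIntegral_along ψ hψ
  haveI : Module.Finite F F' := hfin
  exact hN (φ f) hφf _ h1 v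

/-- a correspondence sends a point to an effective divisor -/
theorem ese_correspondence_single_nonneg (φ ψ : F →ₐ[K] F') (hφ : φ.toRingHom.IsIntegral)
    (hψ : ψ.toRingHom.IsIntegral) (v w : Place K F) :
    0 ≤ Divisor.correspondence φ ψ hφ hψ (Finsupp.single v 1) w := by
  classical
  rw [Divisor.correspondence_apply, Divisor.pullbackAlong_single, map_sum,
    Finsupp.finsetSum_apply]
  refine Finset.sum_nonneg fun W _ => ?_
  rw [Divisor.pushforwardAlong_single, Finsupp.single_apply]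
  split_ifs
  · positivity
  · exact le_rfl

/-- the norm bound for a correspondence -/
theorem ese_norm_correspondence_single (φ ψ : F →ₐ[K] F') (hφ : φ.toRingHom.IsIntegral)
    (hψ : ψ.toRingHom.IsIntegral) (hFI : FundamentalIdentityAlong K φ hφ)
    (hdeg : ∀ v : Place K F, v.deg = 1) (v : Place K F) :
    rg_norm (Divisor.correspondence φ ψ hφ hψ (Finsupp.single v 1)) = finrankAlong K φ := by
  have h := rg_norm_eq_degree_of_nonneg hdeg _
    (ese_correspondence_single_nonneg φ ψ hφ hψ v)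
  rw [Divisor.degree_correspondence φ ψ hφ hψ hFI, Divisor.degree_single, hdeg v] at h
  have : (rg_norm (Divisor.correspondence φ ψ hφ hψ (Finsupp.single v 1)) : ℤ)
      = (finrankAlong K φ : ℤ) := by rw [h]; simp
  exact_mod_cast this

end Generic

/-! ### the operator `g + n g⁻¹` for a semilinear automorphism `g` -/

section Aut

variable {K F : Type*} [Field K] [Field F] [Algebra K F]

/-- `g + n g⁻¹` on divisors -/
def ese_Theta (g : SemilinearAut K F) (n : ℕ) : Divisor K F →+ Divisor K F :=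
  DistribSMul.toAddMonoidHom (Divisor K F) g + n • DistribSMul.toAddMonoidHom (Divisor K F) g⁻¹

/-- `g + n g⁻¹` on `Pic⁰` -/
def ese_theta (g : SemilinearAut K F) (n : ℕ) : Pic0 K F →+ Pic0 K F :=
  DistribSMul.toAddMonoidHom (Pic0 K F) g + n • DistribSMul.toAddMonoidHom (Pic0 K F) g⁻¹

theorem ese_sub_add_cancel {M : Type*} [AddCommGroup M] (a b : M) : a - (a + b) + b = 0 := by
  abel

theorem ese_Theta_apply (g : SemilinearAut K F) (n : ℕ) (E : Divisor K F) :
    ese_Theta g n E = g • E + n • (g⁻¹ • E) := rfl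

theorem ese_theta_apply (g : SemilinearAut K F) (n : ℕ) (x : Pic0 K F) :
    ese_theta g n x = g • x + n • (g⁻¹ • x) := rfl

theorem ese_norm_Theta_single (g : SemilinearAut K F) (n : ℕ) (w : Place K F) :
    rg_norm (ese_Theta g n (Finsupp.single w 1)) ≤ n + 1 := by
  rw [ese_Theta_apply]
  refine (rg_norm_add_le _ _).trans ?_
  rw [rg_norm_nsmul]
  have h1 : rg_norm (g • Finsupp.single w (1 : ℤ)) ≤ 1 := egr_norm_smul_single g w
  have h2 : rg_norm (g⁻¹ • Finsupp.single w (1 : ℤ)) ≤ 1 := egr_norm_smul_single g⁻¹ w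
  nlinarith

theorem ese_Theta_mem_degZero (g : SemilinearAut K F) (n : ℕ) {E : Divisor K F}
    (hE : E ∈ Divisor.degZero (K := K) (F := F)) :
    ese_Theta g n E ∈ Divisor.degZero (K := K) (F := F) := by
  rw [ese_Theta_apply]
  exact add_mem (SemilinearAut.smul_mem_degZero g hE)
    (nsmul_mem (SemilinearAut.smul_mem_degZero g⁻¹ hE) n)

theorem ese_theta_mk (g : SemilinearAut K F) (n : ℕ) (E : Divisor.degZero (K := K) (F := F)) :
    ese_theta g n (Pic0.mk E) = Pic0.mk ⟨ese_Theta g n E, ese_Theta_mem_degZero g n E.2⟩ := rfl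

/-- the divisor of `(g f) (g⁻¹ f)^n` is `(g + n g⁻¹) (div f)` -/
theorem ese_ord_Theta (g : SemilinearAut K F) (n : ℕ) (f zf : F) (hf : f ≠ 0)
    (hz : zf = (g • f) * (g⁻¹ • f) ^ n) (E : Divisor K F) (hE : ∀ Q, E Q = Q.ord f)
    (Q : Place K F) : (ese_Theta g n E) Q = Q.ord zf := by
  have hne1 : g • f ≠ 0 := (smul_ne_zero_iff_ne g).mpr hf
  have hne2 : g⁻¹ • f ≠ 0 := (smul_ne_zero_iff_ne g⁻¹).mpr hf
  rw [hz, Q.ord_mul hne1 (pow_ne_zero _ hne2), ← zpow_natCast, Q.ord_zpow, ese_Theta_apply,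
    Finsupp.add_apply, Finsupp.smul_apply, egr_div_smul g f E hE Q, egr_div_smul g⁻¹ f E hE Q,
    nsmul_eq_mul]

end Aut

/-! ### the seam [NL] and the congruence relation -/

section Modular

variable (A : ValuationSubring (AlgebraicClosure ℚ)) (N ℓ : ℕ) [NeZero N] [NeZero ℓ]

/-- **Seam [NL]** at a place `A` of residue characteristic `ℓ`: the norm of `y(q^ℓ)` from level
`Nℓ` to level `N` is `q`-integral and reduces to `Frob(ȳ) · ȳ(q^ℓ)`. -/
def ese_NL [Fact ℓ.Prime] [CharP (IsLocalRing.ResidueField A) ℓ] : Prop :=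
  ∀ y : jt_IntFun A N, ∃ z : jt_IntFun A N,
    jt_gen z = nl_normBeta N ℓ (jt_gen y) ∧
    (jt_red z : LaurentSeries (IsLocalRing.ResidueField A))
      = coeffMap (frobenius (IsLocalRing.ResidueField A) ℓ)
          (jt_red y : LaurentSeries (IsLocalRing.ResidueField A))
        * qExpand (IsLocalRing.ResidueField A) ℓ
          (jt_red y : LaurentSeries (IsLocalRing.ResidueField A))

variable {A N ℓ}

omit [NeZero ℓ] in
/-- a place over `ℓ` has residue characteristic `ℓ` -/
theorem ese_charP (hℓ : ℓ.Prime) (hA : A.LiesOverPrime ℓ) :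
    CharP (IsLocalRing.ResidueField A) ℓ := by
  have h0 : ((ℓ : ℕ) : IsLocalRing.ResidueField A) = 0 := by
    have h1 : ((ℓ : ℕ) : A) ∈ IsLocalRing.maximalIdeal A := by
      rw [IsLocalRing.mem_maximalIdeal, mem_nonunits_iff]
      intro hu
      have hu' : IsUnit (((ℓ : ℕ) : A) : AlgebraicClosure ℚ) := hu.map A.subtype
      have hmem : ((ℓ : ℕ) : AlgebraicClosure ℚ) ∈ A.nonunits := hA
      rw [ValuationSubring.mem_nonunits_iff_exists_mem_maximalIdeal] at hmem
      obtain ⟨ha, hm⟩ := hmem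
      rw [IsLocalRing.mem_maximalIdeal, mem_nonunits_iff] at hm
      apply hm
      have e : (⟨((ℓ : ℕ) : AlgebraicClosure ℚ), ha⟩ : A) = ((ℓ : ℕ) : A) := by
        apply Subtype.ext
        simp
      rw [e]
      exact hu
    have := (IsLocalRing.residue_eq_zero_iff _).mpr h1
    simpa using this
  exact (CharP.charP_iff_prime_eq_zero hℓ).mpr h0

variable [hℓ : Fact ℓ.Prime] [CharP (IsLocalRing.ResidueField A) ℓ]

local notation "kA" => IsLocalRing.ResidueField A

/-- under `[NL]`: the reduction of the norm is `Fr ȳ · (Fr⁻¹ ȳ)^ℓ` -/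
theorem ese_red_norm (φ : kA ≃+* kA) (hφ : ∀ x, φ x = x ^ ℓ) (y z : jt_IntFun A N)
    (hz : (jt_red z : LaurentSeries kA)
      = coeffMap (frobenius kA ℓ) (jt_red y : LaurentSeries kA)
        * qExpand kA ℓ (jt_red y : LaurentSeries kA)) :
    jt_red z = (ca_aut kA N φ • jt_red y) * ((ca_aut kA N φ)⁻¹ • jt_red y) ^ ℓ := by
  have hfr : (φ : kA →+* kA) = frobenius kA ℓ := RingHom.ext fun x => by
    rw [frobenius_def]; exact hφ x
  apply Subtype.ext
  rw [hz]
  push_cast
  rw [ca_coe_aut_smul, hfr]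
  congr 1
  have h1 := ca_pow_eq_qExpand_frobenius kA ℓ
    (((ca_aut kA N φ)⁻¹ • jt_red y : modularFunctionFieldFullC kA N) : LaurentSeries kA)
  rw [h1, ← hfr, ← ca_coe_aut_smul, smul_inv_smul]

/-- **The congruence relation** `red ∘ T_ℓ = (Fr + ℓ Fr⁻¹) ∘ red` on `J₀(N)`. -/
theorem ese_red_hecke (h : ReductionInputsModL A N)
    (hR : est_Riemann (AlgebraicClosure ℚ) (modularFunctionFieldBar N))
    (hNL : ese_NL A N ℓ) (φ : kA ≃+* kA) (hφ : ∀ x, φ x = x ^ ℓ)
    (hα : HeckeAlphaBarIntegral (AlgebraicClosure ℚ) N ℓ)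
    (hβ : HeckeBetaBarIntegral (AlgebraicClosure ℚ) N ℓ)
    [HasPrincipalDivisors (AlgebraicClosure ℚ)
      (laurentBaseChange (AlgebraicClosure ℚ) (modularFunctionFieldFull (N * ℓ)))]
    (hFI : FundamentalIdentityAlong (AlgebraicClosure ℚ) (heckeBetaBar (AlgebraicClosure ℚ) N ℓ) hβ)
    (hfin : FiniteAlong (AlgebraicClosure ℚ) (heckeAlphaBar (AlgebraicClosure ℚ) N ℓ))
    (hN : NormFormulaAlong (AlgebraicClosure ℚ) (heckeAlphaBar (AlgebraicClosure ℚ) N ℓ) hfin)
    (x : JZero N) :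
    reductionModL A N (heckePic0Bar hα hβ hFI hfin hN x)
      = ese_theta (ca_aut kA N φ) ℓ (reductionModL A N x) := by
  have hS : ∀ (y : jt_IntFun A N)
      (D : Divisor (AlgebraicClosure ℚ) (modularFunctionFieldBar N))
      (E : Divisor kA (modularFunctionFieldFullC kA N)),
      (∀ P, D P = P.ord (jt_gen y)) → (∀ Q, E Q = Q.ord (jt_red y)) →
        Finsupp.mapDomain (placeReductionModL h) (heckeDivBar hα hβ D)
          = ese_Theta (ca_aut kA N φ) ℓ E := by
    intro y D E hD hE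
    obtain ⟨z, hz1, hz2⟩ := hNL y
    have hzr := ese_red_norm φ hφ y z hz2
    ext Q
    have hD' : ∀ P, (heckeDivBar hα hβ D) P = P.ord (jt_gen z) := by
      intro P
      rw [hz1, heckeDivBar]
      exact ese_correspondence_ord _ _ hβ hα hfin hN (jt_gen y) (jt_gen_ne_zero y) D hD P
    have h1 : Finsupp.mapDomain (placeReductionModL h) (heckeDivBar hα hβ D) Q
        = Q.ord (jt_red z) :=
      (isPlaceReductionModL_placeReductionModL h).2 z.1 z.2.1 z.2.2.1 z.2.2.2 _ hD' Q
    rw [h1]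
    exact (ese_ord_Theta (ca_aut kA N φ) ℓ (jt_red y) (jt_red z) (jt_red_ne_zero y) hzr E hE
      Q).symm
  exact est_transfer_pic0 h hR (heckeDivBar hα hβ) (ese_Theta (ca_aut kA N φ) ℓ)
    (max (finrankAlong (AlgebraicClosure ℚ) (heckeBetaBar (AlgebraicClosure ℚ) N ℓ)) (ℓ + 1))
    (fun v => by
      rw [heckeDivBar, ese_norm_correspondence_single _ _ hβ hα hFI hR.deg_one v]
      exact le_max_left _ _)
    (fun w => (ese_norm_Theta_single _ ℓ w).trans (le_max_right _ _))
    hS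
    (heckePic0Bar hα hβ hFI hfin hN)
    (fun D => ⟨Divisor.correspondence_mem_degZero _ _ hβ hα hFI D.2, rfl⟩)
    (ese_theta (ca_aut kA N φ) ℓ)
    (fun E => ⟨ese_Theta_mem_degZero _ ℓ E.2, ese_theta_mk _ ℓ E⟩) x

/-- **The Eichler–Shimura relation after reduction**:
`red (σ₀² x) - red (T_ℓ (σ₀ x)) + ℓ red x = 0` for a Frobenius element `σ₀` at `A`. -/
theorem ese_relation (h : ReductionInputsModL A N)
    (hR : est_Riemann (AlgebraicClosure ℚ) (modularFunctionFieldBar N))
    (hNL : ese_NL A N ℓ) (hH : HeckeInputsAlong (AlgebraicClosure ℚ) N ℓ)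
    (σ₀ : AlgebraicClosure ℚ ≃ₐ[ℚ] AlgebraicClosure ℚ) (hσ₀ : A.IsFrobeniusAt σ₀ ℓ)
    (x : JZero N) :
    reductionModL A N (σ₀ • σ₀ • x)
      - reductionModL A N (heckeOperatorBar N ⟨ℓ, hℓ.out⟩ (σ₀ • x))
      + ℓ • reductionModL A N x = 0 := by
  obtain ⟨hα, hβ, hP, hfin, hFI, hN⟩ := hH
  haveI := hP
  have e : heckeOperatorBar N ⟨ℓ, hℓ.out⟩ (σ₀ • x)
      = heckePic0Bar hα hβ hFI hfin hN (σ₀ • x) := by
    show heckeOperatorAlong (AlgebraicClosure ℚ) N ℓ (σ₀ • x) = _
    rw [heckeOperatorAlong_eq hα hβ hFI hfin hN]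
  set φ := egr_phi (⟨σ₀, hσ₀.mem_decompositionSubgroup⟩ : A.decompositionSubgroup ℚ) with hφdef
  have hφ : ∀ y, φ y = y ^ ℓ := egr_phi_frob σ₀ hσ₀
  have hfr : ∀ y : JZero N, reductionModL A N (σ₀ • y)
      = ca_aut kA N φ • reductionModL A N y := fun y => egr_red_frob h hR σ₀ hσ₀ y
  have hT : reductionModL A N (heckeOperatorBar N ⟨ℓ, hℓ.out⟩ (σ₀ • x))
      = ese_theta (ca_aut kA N φ) ℓ (ca_aut kA N φ • reductionModL A N x) :=
    (congrArg (reductionModL A N) e).trans
      ((ese_red_hecke h hR hNL φ hφ hα hβ hFI hfin hN (σ₀ • x)).trans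
        (congrArg (ese_theta (ca_aut kA N φ) ℓ) (hfr x)))
  have h2 : reductionModL A N (σ₀ • σ₀ • x)
      = ca_aut kA N φ • ca_aut kA N φ • reductionModL A N x :=
    (hfr (σ₀ • x)).trans (congrArg (ca_aut kA N φ • ·) (hfr x))
  rw [hT, h2, ese_theta_apply, inv_smul_smul]
  exact ese_sub_add_cancel _ _

end Modular

end Fermat.Agent.JT3

end
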