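/-
JT3, Eichler–Shimura / Tate module side: THE GALOIS ACTION ON `J₀(N)(ℚ̄)` IS SMOOTH.

Generic part (`egs_place`, `egs_divisor`, `egs_pic0`): a group `G` acting on a function field `F / K`
through semilinear automorphisms, a filter `𝓕` on `G` ("large subsets"), every function fixed by a
large set of `σ`.  Then every place, every divisor and every divisor class is fixed by a large set.
[A place `P` over the value `c` of a nonconstant `y ∈ O_P` is separated from the finitely many other
zeros `Q` of `y - c` by functions `f_Q ∈ O_P \ O_Q`; a `σ` fixing `y - c` and all `f_Q` fixes `P`.]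

Modular part: `egs_exists_fixing N x` : every `x : JZero N` is fixed by `Gal(ℚ̄ / L)` for a finite
extension `L / ℚ`.
-/
import Mathlib
import Fermat.Prelude.Def_ModularCurve_ArithmeticGalois
import Fermat.Agent.JT3.PlaceMap.FunField
import Fermat.Agent.JT3.Riemann.FBar

set_option autoImplicit false
set_option linter.style.haveILetI false
set_option linter.unusedSectionVars false

noncomputable section

namespace Fermat.Agent.JT3

open ModularCurve AlgebraicCurve
open scoped Pointwise

section Generic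

variable {K F : Type*} [Field K] [Field F] [Algebra K F]
variable {G : Type*} [Group G] (ρ : G →* SemilinearAut K F) (𝓕 : Filter G)

/-- every place is fixed by a large set -/
theorem egs_place (hF : rp_FunField K F) (hsm : ∀ f : F, ∀ᶠ σ in 𝓕, ρ σ • f = f) {x : F}
    (hx : Transcendental K x) (P : Place K F) : ∀ᶠ σ in 𝓕, ρ σ • P = P := by
  classical
  obtain ⟨y, hyP, hy⟩ : ∃ y : F, y ∈ P.toValuationSubring ∧ Transcendental K y := by
    rcases P.toValuationSubring.mem_or_inv_mem x with h | h
    · exact ⟨x, h, hx⟩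
    · refine ⟨x⁻¹, h, fun halg => hx ?_⟩
      have := halg.inv
      rwa [inv_inv] at this
  obtain ⟨c, hc⟩ := hF.exists_value P y hyP
  have hu0 : y - algebraMap K F c ≠ 0 := by
    intro h0
    rw [sub_eq_zero] at h0
    exact hy (h0 ▸ isAlgebraic_algebraMap c)
  have hZ := hF.finite_zeros (y - algebraMap K F c) hu0
  have hPpos : 0 < P.ord (y - algebraMap K F c) := by
    rw [Fermat.Agent.S24.hw_ord_pos_iff P hu0]
    exact ((ValuationSubring.mem_nonunits_iff_or _).mp hc).resolve_left hu0
  have hsep : ∀ Q : Place K F, Q ≠ P →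
      ∃ f : F, f ∈ P.toValuationSubring ∧ f ∉ Q.toValuationSubring := by
    intro Q hQ
    by_contra hcon
    push Not at hcon
    haveI := P.isPrincipalIdealRing'
    exact hQ (Place.ext (ValuationSubring.eq_of_le_of_ne_top (A := P.toValuationSubring)
      (B := Q.toValuationSubring) hcon Q.ne_top').symm)
  choose! f hf using hsep
  have h1 : ∀ᶠ σ in 𝓕, ρ σ • (y - algebraMap K F c) = y - algebraMap K F c := hsm _
  have h2 : ∀ᶠ σ in 𝓕, ∀ Q ∈ hZ.toFinset, ρ σ • f Q = f Q :=
    (Filter.eventually_all_finset _).mpr fun Q _ => hsm (f Q)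
  filter_upwards [h1, h2] with σ h1 h2
  by_contra hne
  have hQZ : ρ σ • P ∈ hZ.toFinset := by
    rw [Set.Finite.mem_toFinset]
    show 0 < (ρ σ • P).ord (y - algebraMap K F c)
    rw [← h1, SemilinearAut.ord_smul]
    exact hPpos
  have h3 := h2 _ hQZ
  have hmem : f (ρ σ • P) ∈ (ρ σ • P).toValuationSubring := by
    rw [← h3, SemilinearAut.smul_toValuationSubring]
    exact ValuationSubring.smul_mem_pointwise_smul _ _ _ (hf _ hne).1
  exact (hf _ hne).2 hmem

/-- every divisor is fixed by a large set -/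
theorem egs_divisor (hP : ∀ P : Place K F, ∀ᶠ σ in 𝓕, ρ σ • P = P) (D : Divisor K F) :
    ∀ᶠ σ in 𝓕, ρ σ • D = D := by
  induction D using Finsupp.induction_linear with
  | zero => exact Filter.Eventually.of_forall fun σ => smul_zero _
  | add D E hD hE =>
    filter_upwards [hD, hE] with σ hD hE
    rw [smul_add, hD, hE]
  | single P n =>
    filter_upwards [hP P] with σ hσ
    rw [SemilinearAut.smul_single, hσ]

/-- every divisor class of degree `0` is fixed by a large set -/
theorem egs_pic0 (hP : ∀ P : Place K F, ∀ᶠ σ in 𝓕, ρ σ • P = P) (x : Pic0 K F) :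
    ∀ᶠ σ in 𝓕, ρ σ • x = x := by
  obtain ⟨D, rfl⟩ := Pic0.mk_surjective x
  filter_upwards [egs_divisor ρ 𝓕 hP (D : Divisor K F)] with σ hσ
  rw [SemilinearAut.pic0_smul_mk]
  congr 1
  exact Subtype.ext hσ

end Generic

section Modular

/-- the filter of subsets of `Gal(ℚ̄/ℚ)` containing `Gal(ℚ̄/L)` for some finite `L / ℚ` -/
def egs_filter : Filter (AlgebraicClosure ℚ ≃ₐ[ℚ] AlgebraicClosure ℚ) where
  sets := {S | ∃ L : IntermediateField ℚ (AlgebraicClosure ℚ), FiniteDimensional ℚ L ∧
    ∀ σ : AlgebraicClosure ℚ ≃ₐ[ℚ] AlgebraicClosure ℚ, (∀ y ∈ L, σ y = y) → σ ∈ S}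
  univ_sets := ⟨⊥, inferInstance, fun _ _ => Set.mem_univ _⟩
  sets_of_superset := fun {_ _} ⟨L, hL, h⟩ hST => ⟨L, hL, fun σ hσ => hST (h σ hσ)⟩
  inter_sets := fun {_ _} ⟨L, _, h⟩ ⟨L', _, h'⟩ =>
    ⟨L ⊔ L', inferInstance, fun σ hσ =>
      ⟨h σ fun y hy => hσ y ((le_sup_left : L ≤ L ⊔ L') hy),
        h' σ fun y hy => hσ y ((le_sup_right : L' ≤ L ⊔ L') hy)⟩⟩

theorem egs_eventually_iff {p : (AlgebraicClosure ℚ ≃ₐ[ℚ] AlgebraicClosure ℚ) → Prop} :
    (∀ᶠ σ in egs_filter, p σ) ↔
      ∃ L : IntermediateField ℚ (AlgebraicClosure ℚ), FiniteDimensional ℚ L ∧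
        ∀ σ : AlgebraicClosure ℚ ≃ₐ[ℚ] AlgebraicClosure ℚ, (∀ y ∈ L, σ y = y) → p σ :=
  Iff.rfl

/-- every Laurent series of the base-changed field is fixed, coefficientwise, by a large set -/
theorem egs_series (F₀ : IntermediateField ℚ (LaurentSeries ℚ))
    {z : LaurentSeries (AlgebraicClosure ℚ)}
    (hz : z ∈ laurentBaseChange (AlgebraicClosure ℚ) F₀) :
    ∀ᶠ σ in egs_filter, coeffMap ((σ : AlgebraicClosure ℚ ≃ₐ[ℚ] AlgebraicClosure ℚ) :
      AlgebraicClosure ℚ →+* AlgebraicClosure ℚ) z = z := by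
  rw [mem_laurentBaseChange_iff] at hz
  induction hz using Subfield.closure_induction with
  | mem y hy =>
    rcases hy with ⟨a, rfl⟩ | ⟨w, _, rfl⟩
    · rw [egs_eventually_iff]
      have _ : Algebra.IsAlgebraic ℚ (AlgebraicClosure ℚ) := AlgebraicClosure.isAlgebraic ℚ
      haveI : FiniteDimensional ℚ (IntermediateField.adjoin ℚ ({a} : Set (AlgebraicClosure ℚ))) :=
        IntermediateField.adjoin.finiteDimensional
          (Algebra.IsAlgebraic.isAlgebraic (R := ℚ) a).isIntegral
      refine ⟨IntermediateField.adjoin ℚ {a}, inferInstance, fun σ hσ => ?_⟩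
      rw [coeffMap_algebraMap]
      congr 1
      exact hσ a (IntermediateField.mem_adjoin_simple_self ℚ a)
    · exact Filter.Eventually.of_forall fun σ => coeffMap_coeffEmb _ w
  | one => exact Filter.Eventually.of_forall fun σ => map_one _
  | add x y _ _ hx hy =>
    filter_upwards [hx, hy] with σ hx hy
    rw [map_add, hx, hy]
  | neg x _ hx =>
    filter_upwards [hx] with σ hx
    rw [map_neg, hx]
  | inv x _ hx =>
    filter_upwards [hx] with σ hx
    rw [map_inv₀, hx]
  | mul x y _ _ hx hy =>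
    filter_upwards [hx, hy] with σ hx hy
    rw [map_mul, hx, hy]

/-- every function is fixed by a large set -/
theorem egs_function (F₀ : IntermediateField ℚ (LaurentSeries ℚ))
    (f : laurentBaseChange (AlgebraicClosure ℚ) F₀) :
    ∀ᶠ σ in egs_filter, arithmeticGalois F₀ σ • f = f := by
  filter_upwards [egs_series F₀ f.2] with σ hσ
  exact Subtype.ext hσ

variable (N : ℕ) [NeZero N]

/-- **Smoothness.**  Every point of `J₀(N)(ℚ̄)` is fixed by `Gal(ℚ̄ / L)` for a finite `L / ℚ`. -/
theorem egs_exists_fixing (x : JZero N) :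
    ∃ L : IntermediateField ℚ (AlgebraicClosure ℚ), FiniteDimensional ℚ L ∧
      ∀ σ : AlgebraicClosure ℚ ≃ₐ[ℚ] AlgebraicClosure ℚ, (∀ y ∈ L, σ y = y) → σ • x = x := by
  rw [← egs_eventually_iff (p := fun σ => σ • x = x)]
  have hF : rp_FunField (AlgebraicClosure ℚ) (modularFunctionFieldBar N) :=
    rpf_funField (rt_isSepGen_jBar N)
  exact egs_pic0 (arithmeticGalois (modularFunctionFieldFull N)) egs_filter
    (fun P => egs_place _ _ hF (egs_function (modularFunctionFieldFull N))
      (Fermat.Agent.S24.br_jBar_transcendental N) P) x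

end Modular

end Fermat.Agent.JT3
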