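/-
JT3, Eichler–Shimura side, input (f) of the abstract assembly (`ES/Assembly.lean`):
EVERY valuation subring of `ℚ̄` over a prime `ℓ` has a Frobenius element.

(`S54/Frobenius.lean` constructs a Frobenius at the valuation subring attached to a maximal ideal
of the ring of algebraic integers; `S55/Places/Basic.lean` shows that every valuation subring over
`ℓ` is of that form.)
-/
import Fermat.Agent.S55.Places.Basic

set_option autoImplicit false
set_option linter.style.haveILetI false

namespace Fermat.Agent.JT3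

open Fermat.Agent.S54 Fermat.Agent.S55

local notation "Qbar" => AlgebraicClosure ℚ

/-- The prime of the ring of algebraic integers under a valuation subring over `ℓ` is maximal. -/
theorem fex_Q_isMaximal (A : ValuationSubring Qbar) {ℓ : ℕ} (hℓ : ℓ.Prime)
    (hA : A.LiesOverPrime ℓ) : (pl_Q A).IsMaximal := by
  haveI := pl_Q_liesOver A hℓ hA
  haveI hspanmax : (Ideal.span {(ℓ : ℤ)}).IsMaximal :=
    PrincipalIdealRing.isMaximal_of_irreducible (Nat.prime_iff_prime_int.mp hℓ).irreducible
  haveI : Algebra.IsIntegral ℤ intQbar := by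
    refine ⟨fun b => ?_⟩
    have hb : IsIntegral ℤ (b : Qbar) := b.2
    exact (isIntegral_algebraMap_iff (B := Qbar) Subtype.val_injective).1 hb
  exact Ideal.IsMaximal.of_liesOver_isMaximal (pl_Q A) (Ideal.span {(ℓ : ℤ)})

/-- **Existence of Frobenius elements**: every valuation subring of `ℚ̄` over the prime `ℓ` has a
Frobenius element (an element of the decomposition group acting as `x ↦ x ^ ℓ` on the residue
field). -/
theorem fex_exists_isFrobeniusAt {ℓ : ℕ} (hℓ : ℓ.Prime) (A : ValuationSubring Qbar)
    (hA : A.LiesOverPrime ℓ) :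
    ∃ σ : Qbar ≃ₐ[ℚ] Qbar, A.IsFrobeniusAt σ ℓ := by
  haveI := pl_Q_liesOver A hℓ hA
  haveI := fex_Q_isMaximal A hℓ hA
  obtain ⟨σ, hσ, hfrob⟩ := exists_frob_intQbar hℓ (pl_Q A)
  have h := isFrobeniusAt_valSubring hℓ (pl_Q A) hσ hfrob
  rw [pl_valSubring_eq A hℓ hA] at h
  exact ⟨σ, h⟩

end Fermat.Agent.JT3
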