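/-
JT3, Eichler–Shimura side, node [NL-b]: REDUCTION MOD `ℓ` OF THE NORM FORMULA.

From `nln_norm` (helper28; inputs `nls_exists_swap` (helper24) and `nld_finrankAlong` (helper23)):
  `N_{F̄_{Nℓ}/F̄_N}(y(q^ℓ)) (t^ℓ) = y(t^{ℓ²}) · ∏_{b<ℓ} y(ζ^b t)`,
we get, for a `q`-integral `y` with nonzero reduction `ȳ` at a place `A` over `ℓ`:
the norm is `q`-integral (`ζ ∈ A`) and, because `ζ̄ = 1` in characteristic `ℓ`, its reduction is
`ȳ(q^ℓ) · Frob(ȳ)`  — this is the seam `ese_NL` of `ES/ES.lean`.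
-/
import Mathlib
import Fermat.Agent.JT3.ES.ES
import Fermat.Agent.JT3.NL.Norm
import Fermat.Agent.JT.Kronecker

set_option autoImplicit false
set_option synthInstance.maxHeartbeats 400000
set_option maxHeartbeats 1000000
set_option linter.style.haveILetI false
set_option linter.unusedSectionVars false

noncomputable section

namespace Fermat.Agent.JT3

open ModularCurve AlgebraicCurve HahnSeries Fermat.Agent.S28 Fermat.Agent.JT

/-! ### generic lemmas on Laurent series -/

section Series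

/-- a Laurent series over a field all of whose coefficients lie in a valuation subring comes from
a Laurent series over the subring -/
theorem nlr_exists_coeff_lift {K : Type*} [Field K] (A : ValuationSubring K)
    (Z : LaurentSeries K) (h : ∀ n, Z.coeff n ∈ A) :
    ∃ z : LaurentSeries A, coeffMap A.subtype z = Z := by
  refine ⟨⟨fun n => ⟨Z.coeff n, h n⟩, Z.isPWO_support.mono ?_⟩, ?_⟩
  · intro n hn
    rw [Function.mem_support] at hn
    rw [HahnSeries.mem_support]
    intro h0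
    exact hn (Subtype.ext h0)
  · ext n
    rfl

/-- a root of unity lies in every valuation subring -/
theorem nlr_root_mem {K : Type*} [Field K] (A : ValuationSubring K) {n : ℕ} (hn : n ≠ 0)
    {ζ : K} (hζ : ζ ^ n = 1) : ζ ∈ A := by
  rcases A.mem_or_inv_mem ζ with h | h
  · exact h
  · have h1 : ζ ^ (n - 1) * ζ = 1 := by
      rw [← pow_succ, Nat.sub_add_cancel (Nat.one_le_iff_ne_zero.mpr hn), hζ]
    have h2 : ζ ^ (n - 1) = ζ⁻¹ := eq_inv_of_mul_eq_one_left h1
    have h3 : ζ = (ζ⁻¹) ^ (n - 1) := by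
      rw [inv_pow, h2, inv_inv]
    rw [h3]
    exact pow_mem h _

/-- a root of unity as a unit of a valuation subring -/
def nlr_unit {K : Type*} [Field K] (A : ValuationSubring K) {n : ℕ} (hn : n ≠ 0)
    (ζ : Kˣ) (hζ : ζ ^ n = 1) : Aˣ where
  val := ⟨(ζ : K), nlr_root_mem A hn (by rw [← Units.val_pow_eq_pow_val, hζ, Units.val_one])⟩
  inv := ⟨((ζ⁻¹ : Kˣ) : K), nlr_root_mem A hn (by
    rw [← Units.val_pow_eq_pow_val, inv_pow, hζ, inv_one, Units.val_one])⟩
  val_inv := Subtype.ext (by simp)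
  inv_val := Subtype.ext (by simp)

theorem nlr_map_unit {K : Type*} [Field K] (A : ValuationSubring K) {n : ℕ} (hn : n ≠ 0)
    (ζ : Kˣ) (hζ : ζ ^ n = 1) :
    Units.map (A.subtype : A →* K) (nlr_unit A hn ζ hζ) = ζ :=
  Units.ext rfl

theorem nlr_unit_pow {K : Type*} [Field K] (A : ValuationSubring K) {n : ℕ} (hn : n ≠ 0)
    (ζ : Kˣ) (hζ : ζ ^ n = 1) : nlr_unit A hn ζ hζ ^ n = 1 := by
  apply Units.ext
  apply Subtype.ext
  rw [Units.val_pow_eq_pow_val, Units.val_one]
  show (((nlr_unit A hn ζ hζ : A) ^ n : A) : K) = 1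
  rw [SubmonoidClass.coe_pow]
  show (ζ : K) ^ n = 1
  rw [← Units.val_pow_eq_pow_val, hζ, Units.val_one]

end Series

/-! ### `q ↦ q^ℓ` preserves the reduced function field in characteristic `ℓ` -/

section QExpandMem

variable (k : Type*) [Field k] (N ℓ : ℕ) [NeZero N] [NeZero ℓ] [hℓ : Fact ℓ.Prime] [CharP k ℓ]

theorem nlr_qExpand_mem {x : LaurentSeries k} (hx : x ∈ modularFunctionFieldFullC k N) :
    qExpand k ℓ x ∈ modularFunctionFieldFullC k N := by
  rw [modularFunctionFieldFullC] at hx ⊢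
  induction hx using IntermediateField.adjoin_induction with
  | mem y hy =>
    obtain ⟨d, hd, hdN, rfl⟩ := hy
    haveI := hd
    haveI : NeZero (ℓ * d) := ⟨Nat.mul_ne_zero (NeZero.ne ℓ) (NeZero.ne d)⟩
    haveI : NeZero (d * ℓ) := ⟨Nat.mul_ne_zero (NeZero.ne d) (NeZero.ne ℓ)⟩
    rw [qExpand_qExpand, qExpand_congr (Nat.mul_comm ℓ d), kc_qExpand_mul_jq hℓ.out d]
    exact pow_mem (IntermediateField.subset_adjoin _ _ (mem_divisorExpansionsC k N hdN)) ℓ
  | algebraMap c =>
    rw [algebraMap_laurentSeries_eq_single, qExpand_single, mul_zero,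
      ← algebraMap_laurentSeries_eq_single]
    exact IntermediateField.algebraMap_mem _ _
  | add x y _ _ hx hy => rw [map_add]; exact add_mem hx hy
  | inv x _ hx => rw [map_inv₀]; exact inv_mem hx
  | mul x y _ _ hx hy => rw [map_mul]; exact mul_mem hx hy

end QExpandMem

/-! ### the seam [NL] -/

section Main

variable {A : ValuationSubring (AlgebraicClosure ℚ)} {N ℓ : ℕ} [NeZero N] [NeZero ℓ]
  [hℓ : Fact ℓ.Prime] [CharP (IsLocalRing.ResidueField A) ℓ]

local notation "kA" => IsLocalRing.ResidueField A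
local notation "Qbar" => AlgebraicClosure ℚ

/-- **[NL-b]**: the seam `ese_NL` from the norm formula. -/
theorem nlr_NL (hℓN : ¬ ℓ ∣ N)
    (hdeg : finrankAlong Qbar (heckeAlphaBar Qbar N ℓ) = ℓ + 1)
    (hsw : ∃ w : modularFunctionFieldBar (N * ℓ) →+* LaurentSeries ℂ,
      (∀ x : modularFunctionFieldBar N, w (heckeAlphaBar Qbar N ℓ x) =
        coeffMap (S24.br_iota : Qbar →+* ℂ) (qExpand Qbar ℓ (x : LaurentSeries Qbar))) ∧
      (∀ y : modularFunctionFieldBar N, w (heckeBetaBar Qbar N ℓ y) =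
        coeffMap (S24.br_iota : Qbar →+* ℂ) (y : LaurentSeries Qbar))) :
    ese_NL A N ℓ := by
  intro y
  -- a primitive `ℓ`-th root of unity
  haveI : NeZero ((ℓ : ℕ) : Qbar) := NeZero.charZero
  obtain ⟨ζ₀, hζ₀⟩ := HasEnoughRootsOfUnity.exists_primitiveRoot Qbar ℓ
  have hζ₀0 : ζ₀ ≠ 0 := hζ₀.ne_zero (NeZero.ne ℓ)
  set ζ : Qbarˣ := Units.mk0 ζ₀ hζ₀0 with hζdef
  have hζ : IsPrimitiveRoot ζ ℓ := by
    rw [← IsPrimitiveRoot.coe_units_iff]
    exact hζ₀
  have hζpow : ζ ^ ℓ = 1 := hζ.pow_eq_one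
  set ζA : Aˣ := nlr_unit A (NeZero.ne ℓ) ζ hζpow with hζA
  have hζAmap : Units.map (A.subtype : A →* Qbar) ζA = ζ := nlr_map_unit A _ ζ hζpow
  have hζApow : ζA ^ ℓ = 1 := nlr_unit_pow A _ ζ hζpow
  -- the norm formula
  have hnorm := nln_norm (N := N) (l := ℓ) hℓ.out hℓN hdeg hsw ζ hζ (jt_gen y)
  set Z : LaurentSeries Qbar :=
    ((nl_normBeta N ℓ (jt_gen y) : modularFunctionFieldBar N) : LaurentSeries Qbar) with hZ
  set R1 : LaurentSeries A :=
    qExpand A (ℓ ^ 2) y.1 * ∏ b ∈ Finset.range ℓ, fs_twist (ζA ^ b) y.1 with hR1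
  have hR1map : coeffMap A.subtype R1 = qExpand Qbar ℓ Z := by
    rw [hnorm, hR1, map_mul, map_prod, coeffMap_qExpand]
    congr 1
    refine Finset.prod_congr rfl fun b _ => ?_
    rw [fs_coeffMap_twist, map_pow, hζAmap]
    rfl
  -- the coefficients of `Z` lie in `A`
  have hZA : ∀ n, Z.coeff n ∈ A := by
    intro n
    have h1 : Z.coeff n = (qExpand Qbar ℓ Z).coeff ((ℓ : ℤ) * n) := (qExpand_coeff_mul ℓ Z n).symm
    rw [h1, ← hR1map, coeffMap_coeff]
    exact (R1.coeff _).2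
  obtain ⟨z1, hz1⟩ := nlr_exists_coeff_lift A Z hZA
  have hinjA : Function.Injective (coeffMap A.subtype : LaurentSeries A → LaurentSeries Qbar) := by
    intro a b hab
    ext n
    have := congrArg (fun s => HahnSeries.coeff s n) hab
    simpa [coeffMap_coeff] using this
  have hz1R : qExpand A ℓ z1 = R1 := by
    apply hinjA
    rw [coeffMap_qExpand, hz1, hR1map]
  -- reduction
  set ybar : LaurentSeries kA := coeffMap (IsLocalRing.residue A) y.1 with hybar
  have hone : Units.map ((IsLocalRing.residue A : A →+* kA) : A →* kA) ζA = 1 :=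
    kc_map_zeta_eq_one hℓ.out ζA hζApow (IsLocalRing.residue A)
  have hred : qExpand kA ℓ (coeffMap (IsLocalRing.residue A) z1)
      = qExpand kA ℓ (coeffMap (frobenius kA ℓ) ybar * qExpand kA ℓ ybar) := by
    rw [← coeffMap_qExpand, hz1R, hR1, map_mul, map_prod, coeffMap_qExpand]
    have h1 : ∀ b ∈ Finset.range ℓ,
        coeffMap (IsLocalRing.residue A) (fs_twist (ζA ^ b) y.1) = ybar := by
      intro b _
      rw [fs_coeffMap_twist, map_pow, hone, one_pow, fs_twist_one]
    rw [Finset.prod_congr rfl h1, Finset.prod_const, Finset.card_range,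
      ca_pow_eq_qExpand_frobenius kA ℓ ybar, map_mul, qExpand_qExpand,
      qExpand_congr (sq ℓ), mul_comm]
  have hzred : coeffMap (IsLocalRing.residue A) z1
      = coeffMap (frobenius kA ℓ) ybar * qExpand kA ℓ ybar := qExpand_injective ℓ hred
  have hybar_mem : ybar ∈ modularFunctionFieldFullC kA N := y.2.2.1
  have hybar_ne : ybar ≠ 0 := y.2.2.2
  have hfrob_ne : coeffMap (frobenius kA ℓ) ybar ≠ 0 := by
    intro h0
    apply hybar_ne
    ext n
    have := congrArg (fun s => HahnSeries.coeff s n) h0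
    simp only [coeffMap_coeff, HahnSeries.coeff_zero] at this
    have h2 : ybar.coeff n ^ ℓ = 0 := by rw [← frobenius_def]; exact this
    exact pow_eq_zero_iff (NeZero.ne ℓ) |>.mp h2
  have hq_ne : qExpand kA ℓ ybar ≠ 0 := fun h0 =>
    hybar_ne (qExpand_injective ℓ (by rw [h0, map_zero]))
  refine ⟨⟨z1, ?_, ?_, ?_⟩, ?_, ?_⟩
  · rw [hz1]; exact (nl_normBeta N ℓ (jt_gen y)).2
  · rw [hzred]
    exact mul_mem (ca_mem (frobenius kA ℓ) hybar_mem) (nlr_qExpand_mem kA N ℓ hybar_mem)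
  · rw [hzred]; exact mul_ne_zero hfrob_ne hq_ne
  · exact Subtype.ext hz1
  · exact hzred

end Main

end Fermat.Agent.JT3

end
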