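/-
JT3 (Jacobian tower), Eichler–Shimura side: the ABSTRACT ASSEMBLY of `SpecializationExists`.

`J' := J ⧸ Ker` where `Ker` is (in the application) the kernel of the reduction map
`reductionModL A N`.  The Hecke action and the Frobenius `F` on `J'` are INDUCED from `J`, so no
statement about Hecke operators in characteristic `ℓ` (e.g. their commutativity) is needed.
The six inputs:
 (a) `Ker` is a Hecke submodule,
 (b) `σ₀ Ker ⊆ Ker` for one Frobenius element `σ₀`,
 (c) `(τ - 1) J ⊆ Ker` for `τ` in the inertia group,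
 (d) `(σ₀² - T_ℓ σ₀ + ℓ) J ⊆ Ker`  (Eichler–Shimura),
 (e) `Ker` contains no nonzero `p`-power torsion (good reduction + S18),
 (f) a Frobenius element `σ₀` exists.
-/
import Mathlib
import Fermat.Prelude.Def_HeckeGalois_EichlerShimura
import Fermat.Prelude.Def_ModularCurve_HeckeModule

set_option autoImplicit false

namespace Fermat.Agent.JT3

open ModularCurve

section Frob

variable {K L : Type*} [Field K] [Field L] [Algebra K L]

/-- two Frobenius elements at `A` differ by an element of the inertia group -/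
theorem esa_inv_mul_mem_inertia (A : ValuationSubring L) {ℓ : ℕ}
    {σ₀ σ : L ≃ₐ[K] L}
    (h₀ : A.IsFrobeniusAt σ₀ ℓ) (h : A.IsFrobeniusAt σ ℓ) :
    σ₀⁻¹ * σ ∈ A.inertiaSubgroupIn K := by
  obtain ⟨hσ₀, h₀'⟩ := h₀
  obtain ⟨hσ, h'⟩ := h
  rw [ValuationSubring.inertiaSubgroupIn, Subgroup.mem_map]
  refine ⟨(⟨σ₀, hσ₀⟩ : A.decompositionSubgroup K)⁻¹ * ⟨σ, hσ⟩, ?_, rfl⟩
  rw [ValuationSubring.inertiaSubgroup, MonoidHom.mem_ker]
  ext x
  show ((⟨σ₀, hσ₀⟩ : A.decompositionSubgroup K)⁻¹ * ⟨σ, hσ⟩) • x = x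
  rw [mul_smul, h' x, inv_smul_eq_iff, h₀' x]

end Frob

section Assembly

variable {K L : Type*} [Field K] [Field L] [Algebra K L]
variable (p : ℕ) (J : Type) [AddCommGroup J] [Module HeckeAlg J]
  [DistribMulAction (L ≃ₐ[K] L) J] [SMulCommClass (L ≃ₐ[K] L) HeckeAlg J]

/-- the `HeckeAlg`-linear map `x ↦ σ • x` -/
def esa_act (σ : L ≃ₐ[K] L) : J →ₗ[HeckeAlg] J where
  toFun x := σ • x
  map_add' x y := smul_add σ x y
  map_smul' T x := smul_comm σ T x

@[simp] theorem esa_act_apply (σ : L ≃ₐ[K] L) (x : J) : esa_act J σ x = σ • x := rfl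

/-- **Abstract assembly**: the specialization `J → J ⧸ Ker`. -/
theorem esa_exists (A : ValuationSubring L) (ℓ : ℕ) (hℓ : ℓ.Prime)
    (Ker : Submodule HeckeAlg J)
    (σ₀ : L ≃ₐ[K] L) (hσ₀ : A.IsFrobeniusAt σ₀ ℓ)
    (hb : ∀ x ∈ Ker, σ₀ • x ∈ Ker)
    (hc : ∀ τ ∈ A.inertiaSubgroupIn K, ∀ x : J, τ • x - x ∈ Ker)
    (hd : ∀ x : J, σ₀ • σ₀ • x - heckeGen ⟨ℓ, hℓ⟩ • (σ₀ • x) + ℓ • x ∈ Ker)
    (he : ∀ x ∈ Ker, (∃ n : ℕ, p ^ n • x = 0) → x = 0) :
    ∃ (J' : Type) (_ : AddCommGroup J') (_ : Module HeckeAlg J') (sp : J →+ J')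
      (F : J' →+ J'),
      IsSpecialization (K := K) p J J' A ℓ sp F ∧ SpecialFibreRelation J' ℓ hℓ F := by
  have hbK : Ker ≤ Ker.comap (esa_act J σ₀) := fun x hx => hb x hx
  refine ⟨J ⧸ Ker, inferInstance, inferInstance, Ker.mkQ.toAddMonoidHom,
    (Ker.mapQ Ker (esa_act J σ₀) hbK).toAddMonoidHom, ⟨?_, ?_, ?_, ?_⟩, ?_⟩
  · intro T x
    exact map_smul Ker.mkQ T x
  · intro τ hτ x
    show Ker.mkQ (τ • x) = Ker.mkQ x
    rw [Submodule.mkQ_apply, Submodule.mkQ_apply, Submodule.Quotient.eq]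
    exact hc τ hτ x
  · intro σ hσ x
    show Ker.mkQ (σ • x) = Ker.mapQ Ker (esa_act J σ₀) hbK (Ker.mkQ x)
    rw [Submodule.mkQ_apply, Submodule.mkQ_apply, Submodule.mapQ_apply, esa_act_apply,
      Submodule.Quotient.eq]
    have hτ := esa_inv_mul_mem_inertia A hσ₀ hσ
    have e : σ • x - σ₀ • x = σ₀ • ((σ₀⁻¹ * σ) • x - x) := by
      rw [smul_sub, ← mul_smul, mul_inv_cancel_left]
    rw [e]
    exact hb _ (hc _ hτ x)
  · intro x hx hsp
    have hxK : x ∈ Ker := by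
      have : Ker.mkQ x = 0 := hsp
      rwa [Submodule.mkQ_apply, Submodule.Quotient.mk_eq_zero] at this
    exact he x hxK hx
  · intro y
    obtain ⟨x, rfl⟩ := Ker.mkQ_surjective y
    show Ker.mapQ Ker (esa_act J σ₀) hbK (Ker.mapQ Ker (esa_act J σ₀) hbK (Ker.mkQ x))
      - heckeGen ⟨ℓ, hℓ⟩ • Ker.mapQ Ker (esa_act J σ₀) hbK (Ker.mkQ x) + ℓ • Ker.mkQ x = 0
    rw [Submodule.mkQ_apply, Submodule.mapQ_apply, Submodule.mapQ_apply, esa_act_apply,
      esa_act_apply, ← Submodule.Quotient.mk_smul, ← Submodule.Quotient.mk_sub,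
      ← Submodule.Quotient.mk_smul (p := Ker) (r := ℓ), ← Submodule.Quotient.mk_add,
      Submodule.Quotient.mk_eq_zero]
    exact hd x

end Assembly

/-! ### the modular instance: the exact shape of S37 -/

section Modular

variable (N : ℕ) [NeZero N]

/-- an additive subgroup of `J₀(N)` stable under all `T_q` is a Hecke submodule -/
theorem esa_smul_mem (hcomm : HeckeOperatorsCommuteBar N) (Ker : AddSubgroup (JZero N))
    (hK : ∀ (q : Nat.Primes) (x : JZero N), x ∈ Ker → heckeOperatorBar N q x ∈ Ker)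
    (T : HeckeAlg) (x : JZero N) (hx : x ∈ Ker) :
    (letI := heckeModuleBar N; T • x) ∈ Ker := by
  rw [heckeModuleBar_smul_def hcomm]
  induction T using MvPolynomial.induction_on generalizing x with
  | C a =>
    rw [heckeEvalBar_C, Module.End.intCast_apply]
    exact Ker.zsmul_mem hx a
  | add f g hf hg =>
    rw [map_add, LinearMap.add_apply]
    exact Ker.add_mem (hf x hx) (hg x hx)
  | mul_X f q hf =>
    rw [map_mul, Module.End.mul_apply]
    have : heckeEvalBar hcomm (MvPolynomial.X q) = heckeOperatorBar N q :=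
      heckeEvalBar_heckeGen hcomm q
    rw [this]
    exact hf _ (hK q x hx)

/-- **S37 from a reduction package.**  For every good prime `ℓ` and every place `A` over `ℓ` an
additive map `red` out of `J₀(N)` whose kernel is stable under the Hecke operators and under a
Frobenius element `σ₀`, kills `(τ - 1) J` for `τ` in the inertia group and
`(σ₀² - T_ℓ σ₀ + ℓ) J`, and is injective on `p`-power torsion. -/
theorem esa_specializationExists (p : ℕ) (hcomm : HeckeOperatorsCommuteBar N)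
    (hpack : ∀ (ℓ : ℕ) (hℓ : ℓ.Prime), ¬ ℓ ∣ N * p →
      ∀ A : ValuationSubring (AlgebraicClosure ℚ), A.LiesOverPrime ℓ →
        ∃ (M : Type) (_ : AddCommGroup M) (red : JZero N →+ M)
          (σ₀ : AlgebraicClosure ℚ ≃ₐ[ℚ] AlgebraicClosure ℚ),
          A.IsFrobeniusAt σ₀ ℓ ∧
          (∀ (q : Nat.Primes) (x : JZero N), red x = 0 → red (heckeOperatorBar N q x) = 0) ∧
          (∀ x : JZero N, red x = 0 → red (σ₀ • x) = 0) ∧
          (∀ τ ∈ A.inertiaSubgroupIn ℚ, ∀ x : JZero N, red (τ • x) = red x) ∧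
          (∀ x : JZero N, red (σ₀ • σ₀ • x) - red (heckeOperatorBar N ⟨ℓ, hℓ⟩ (σ₀ • x))
            + ℓ • red x = 0) ∧
          (∀ x : JZero N, (∃ n : ℕ, p ^ n • x = 0) → red x = 0 → x = 0)) :
    letI := heckeModuleBar N
    ∀ (_ : SMulCommClass (AlgebraicClosure ℚ ≃ₐ[ℚ] AlgebraicClosure ℚ) HeckeAlg (JZero N)),
      SpecializationExists (K := ℚ) (L := AlgebraicClosure ℚ) N p (JZero N) := by
  let _ := heckeModuleBar N
  intro _ ℓ hℓ hℓNp A hA
  obtain ⟨M, _, red, σ₀, hσ₀, ha, hb, hc, hd, he⟩ := hpack ℓ hℓ hℓNp A hA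
  let Ker : Submodule HeckeAlg (JZero N) :=
    { red.ker with
      smul_mem' := fun T x hx => esa_smul_mem N hcomm red.ker
        (fun q y hy => (AddMonoidHom.mem_ker).mpr (ha q y ((AddMonoidHom.mem_ker).mp hy))) T x hx }
  have hmem : ∀ x : JZero N, x ∈ Ker ↔ red x = 0 := fun x => AddMonoidHom.mem_ker
  refine esa_exists p (JZero N) A ℓ hℓ Ker σ₀ hσ₀ ?_ ?_ ?_ ?_
  · intro x hx
    exact (hmem _).mpr (hb x ((hmem x).mp hx))
  · intro τ hτ x
    rw [hmem, map_sub, hc τ hτ x, sub_self]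
  · intro x
    have e : heckeGen (⟨ℓ, hℓ⟩ : Nat.Primes) • (σ₀ • x) = heckeOperatorBar N ⟨ℓ, hℓ⟩ (σ₀ • x) :=
      heckeModuleBar_heckeGen_smul hcomm _ _
    rw [hmem, map_add, map_sub, map_nsmul, e]
    exact hd x
  · intro x hx hp
    exact he x hp ((hmem x).mp hx)

end Modular

end Fermat.Agent.JT3
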