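/-
JT3, Eichler–Shimura side: the assembly of `SpecializationExists` from a WEAK reduction package.

Improvement over `esa_specializationExists`: the kernel of the reduction map need NOT be known to
be stable under the Hecke operators `T_q`.  One replaces `Ker red` by the largest Hecke submodule
contained in it, `Ker' := {x | ∀ T, red (T • x) = 0}`; the Galois action commutes with the Hecke
action (a hypothesis of S37), so all the other clauses pass to `Ker'`.
Hence NO Hecke operator in characteristic `ℓ` other than `T_ℓ` is ever needed.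
-/
import Mathlib
import Fermat.Agent.JT3.ES.Assembly

set_option autoImplicit false

namespace Fermat.Agent.JT3

open ModularCurve

section Abstract

variable {K L : Type*} [Field K] [Field L] [Algebra K L]
variable (p : ℕ) (J : Type) [AddCommGroup J] [Module HeckeAlg J]
  [DistribMulAction (L ≃ₐ[K] L) J] [SMulCommClass (L ≃ₐ[K] L) HeckeAlg J]

/-- the largest Hecke submodule contained in the kernel of an additive map -/
def esa_heckeCore {M : Type*} [AddCommGroup M] (red : J →+ M) : Submodule HeckeAlg J where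
  carrier := {x | ∀ T : HeckeAlg, red (T • x) = 0}
  zero_mem' := fun T => by rw [smul_zero, map_zero]
  add_mem' := fun {x y} hx hy T => by rw [smul_add, map_add, hx T, hy T, add_zero]
  smul_mem' := fun T' x hx T => by rw [smul_smul]; exact hx _

variable {J}

theorem esa_mem_heckeCore {M : Type*} [AddCommGroup M] (red : J →+ M) (x : J) :
    x ∈ esa_heckeCore J red ↔ ∀ T : HeckeAlg, red (T • x) = 0 := Iff.rfl

theorem esa_red_eq_zero_of_mem {M : Type*} [AddCommGroup M] (red : J →+ M) {x : J}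
    (hx : x ∈ esa_heckeCore J red) : red x = 0 := by
  have := hx 1
  rwa [one_smul] at this

/-- **Abstract assembly, weak form.** -/
theorem esa_exists_weak (A : ValuationSubring L) (ℓ : ℕ) (hℓ : ℓ.Prime)
    {M : Type*} [AddCommGroup M] (red : J →+ M)
    (σ₀ : L ≃ₐ[K] L) (hσ₀ : A.IsFrobeniusAt σ₀ ℓ)
    (hb : ∀ x : J, red x = 0 → red (σ₀ • x) = 0)
    (hc : ∀ τ ∈ A.inertiaSubgroupIn K, ∀ x : J, red (τ • x) = red x)
    (hd : ∀ x : J, red (σ₀ • σ₀ • x) - red (heckeGen ⟨ℓ, hℓ⟩ • (σ₀ • x)) + ℓ • red x = 0)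
    (he : ∀ x : J, (∃ n : ℕ, p ^ n • x = 0) → red x = 0 → x = 0) :
    ∃ (J' : Type) (_ : AddCommGroup J') (_ : Module HeckeAlg J') (sp : J →+ J')
      (F : J' →+ J'),
      IsSpecialization (K := K) p J J' A ℓ sp F ∧ SpecialFibreRelation J' ℓ hℓ F := by
  refine esa_exists p J A ℓ hℓ (esa_heckeCore J red) σ₀ hσ₀ ?_ ?_ ?_ ?_
  · intro x hx T
    rw [← smul_comm σ₀ T x]
    exact hb _ (hx T)
  · intro τ hτ x T
    rw [smul_sub, map_sub, ← smul_comm τ T x, hc τ hτ, sub_self]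
  · intro x T
    have e : T • (σ₀ • σ₀ • x - heckeGen ⟨ℓ, hℓ⟩ • (σ₀ • x) + ℓ • x)
        = σ₀ • σ₀ • (T • x) - heckeGen ⟨ℓ, hℓ⟩ • (σ₀ • (T • x)) + ℓ • (T • x) := by
      rw [smul_add, smul_sub, ← smul_comm σ₀ T (σ₀ • x), ← smul_comm σ₀ T x,
        smul_comm T (heckeGen ⟨ℓ, hℓ⟩) (σ₀ • x), ← smul_comm σ₀ T x, smul_comm T ℓ x]
    rw [e, map_add, map_sub, map_nsmul]
    exact hd (T • x)
  · intro x hx hp
    exact he x hp (esa_red_eq_zero_of_mem red hx)

end Abstract

section Modular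

variable (N : ℕ) [NeZero N]

/-- **S37 from a weak reduction package** (no Hecke-stability of the kernel required). -/
theorem esa_specializationExists_weak (p : ℕ) (hcomm : HeckeOperatorsCommuteBar N)
    (hpack : ∀ (ℓ : ℕ) (hℓ : ℓ.Prime), ¬ ℓ ∣ N * p →
      ∀ A : ValuationSubring (AlgebraicClosure ℚ), A.LiesOverPrime ℓ →
        ∃ (M : Type) (_ : AddCommGroup M) (red : JZero N →+ M)
          (σ₀ : AlgebraicClosure ℚ ≃ₐ[ℚ] AlgebraicClosure ℚ),
          A.IsFrobeniusAt σ₀ ℓ ∧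
          (∀ x : JZero N, red x = 0 → red (σ₀ • x) = 0) ∧
          (∀ τ ∈ A.inertiaSubgroupIn ℚ, ∀ x : JZero N, red (τ • x) = red x) ∧
          (∀ x : JZero N, red (σ₀ • σ₀ • x) - red (heckeOperatorBar N ⟨ℓ, hℓ⟩ (σ₀ • x))
            + ℓ • red x = 0) ∧
          (∀ x : JZero N, (∃ n : ℕ, p ^ n • x = 0) → red x = 0 → x = 0)) :
    letI := heckeModuleBar N
    ∀ (_ : SMulCommClass (AlgebraicClosure ℚ ≃ₐ[ℚ] AlgebraicClosure ℚ) HeckeAlg (JZero N)),
      SpecializationExists (K := ℚ) (L := AlgebraicClosure ℚ) N p (JZero N) := by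
  let _ := heckeModuleBar N
  intro _ ℓ hℓ hℓNp A hA
  obtain ⟨M, _, red, σ₀, hσ₀, hb, hc, hd, he⟩ := hpack ℓ hℓ hℓNp A hA
  refine esa_exists_weak p A ℓ hℓ red σ₀ hσ₀ hb hc ?_ he
  intro x
  have e : heckeGen (⟨ℓ, hℓ⟩ : Nat.Primes) • (σ₀ • x) = heckeOperatorBar N ⟨ℓ, hℓ⟩ (σ₀ • x) :=
    heckeModuleBar_heckeGen_smul hcomm _ _
  rw [e]
  exact hd x

end Modular

end Fermat.Agent.JT3
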