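/-
JT3, Eichler–Shimura side: the Riemann package `est_Riemann` for `Q̄(X₀(N))`
(instance of helper23's node T0a `JT3/Riemann/FBar.lean`).
-/
import Mathlib
import Fermat.Agent.JT3.ES.Transfer
import Fermat.Agent.JT3.Riemann.FBar
import Fermat.Agent.JT3.Places.CharFree

set_option autoImplicit false
set_option synthInstance.maxHeartbeats 400000
set_option maxHeartbeats 1000000

noncomputable section

namespace Fermat.Agent.JT3

open ModularCurve AlgebraicCurve Fermat.Agent.S24 IntermediateField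

/-- **the Riemann package of `Q̄(X₀(N))`** -/
theorem est_riemann_fbar (N : ℕ) [NeZero N] :
    est_Riemann (AlgebraicClosure ℚ) (modularFunctionFieldBar N) := by
  have hx := rt_isSepGen_jBar N
  have : FiniteDimensional Kbar⟮br_jBar N⟯ (Fbar N) := hx.2.1
  have : Algebra.IsSeparable Kbar⟮br_jBar N⟯ (Fbar N) := hx.2.2
  refine ⟨fun v => rt_deg_eq_one hx v, ?_, ?_, ?_⟩
  · obtain ⟨v, _⟩ := pcf_exists_pole (K := Kbar) (F := Fbar N) hx.1
    exact ⟨v⟩
  · intro f hf
    exact (rt_hasPrincipalDivisors_fbar N).exists_divisor f hf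
  · obtain ⟨g, hg⟩ := rt_exists_effective_fbar N
    refine ⟨g, fun E hE => ?_⟩
    obtain ⟨D, hD0, _, f, hf, hDf⟩ := hg E (le_of_eq hE.symm)
    refine ⟨f, hf, fun v => ?_⟩
    have h1 := hDf v
    have h2 : (0 : ℤ) ≤ D v := Finsupp.le_def.mp hD0 v
    rw [Finsupp.sub_apply] at h1
    rw [← h1]
    linarith

end Fermat.Agent.JT3

end
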