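/-
JT3, Eichler–Shimura side: FINAL WIRING of S37 (`SpecializationExists` for `J₀(N)`) from its
remaining inputs, each stated as a hypothesis in the exact shape in which it will be delivered:

* `hE`   : node E at level `N` — `ReductionInputsModL A N` for every place `A` over `ℓ ∤ N`;
* `hS18` : the statement of S18 (injectivity of `red` on prime-to-`ℓ` torsion);
* `hFE`  : a Frobenius element exists at every place `A` over `ℓ`;
* `hNL`  : the seam [NL] `ese_NL A N ℓ` (Kronecker congruence for the norm of `y(q^ℓ)`).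

Already proved and used here: `est_riemann_fbar` (Riemann, helper23's T0a),
`hib_heckeInputsAlong` (helper24's T0c), `egr_red_*` (Galois equivariance of `red`),
`ese_relation` (Eichler–Shimura relation), `esa_specializationExists_weak` (assembly).
-/
import Mathlib
import Fermat.Agent.JT3.ES.AssemblyW
import Fermat.Agent.JT3.ES.ES
import Fermat.Agent.JT3.ES.RiemannFbar
import Fermat.Agent.JT3.Hecke.InputsBar

set_option autoImplicit false
set_option synthInstance.maxHeartbeats 400000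
set_option maxHeartbeats 1000000
set_option linter.style.haveILetI false

noncomputable section

namespace Fermat.Agent.JT3

open ModularCurve AlgebraicCurve

/-- **S37 from its four remaining inputs.** -/
theorem esw_specializationExists (N p : ℕ) [NeZero N] (hcomm : HeckeOperatorsCommuteBar N)
    (hE : ∀ ℓ : ℕ, ℓ.Prime → ¬ ℓ ∣ N →
      ∀ A : ValuationSubring (AlgebraicClosure ℚ), A.LiesOverPrime ℓ → ReductionInputsModL A N)
    (hS18 : ∀ ℓ : ℕ, ℓ.Prime → ¬ ℓ ∣ N →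
      ∀ A : ValuationSubring (AlgebraicClosure ℚ), A.LiesOverPrime ℓ →
        ReductionInputsModL A N → ∀ m : ℕ, ¬ ℓ ∣ m → ∀ z : JZero N, m • z = 0 →
          reductionModL A N z = 0 → z = 0)
    (hFE : ∀ ℓ : ℕ, ℓ.Prime →
      ∀ A : ValuationSubring (AlgebraicClosure ℚ), A.LiesOverPrime ℓ →
        ∃ σ : AlgebraicClosure ℚ ≃ₐ[ℚ] AlgebraicClosure ℚ, A.IsFrobeniusAt σ ℓ)
    (hNL : ∀ (ℓ : ℕ) (hℓ : ℓ.Prime), ¬ ℓ ∣ N →
      ∀ (A : ValuationSubring (AlgebraicClosure ℚ)) (hA : A.LiesOverPrime ℓ),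
        @ese_NL A N ℓ _ ⟨hℓ.ne_zero⟩ ⟨hℓ⟩ (ese_charP hℓ hA)) :
    letI := heckeModuleBar N
    ∀ (_ : SMulCommClass (AlgebraicClosure ℚ ≃ₐ[ℚ] AlgebraicClosure ℚ) HeckeAlg (JZero N)),
      SpecializationExists (K := ℚ) (L := AlgebraicClosure ℚ) N p (JZero N) := by
  refine esa_specializationExists_weak N p hcomm ?_
  intro ℓ hℓ hℓNp A hA
  have hℓN : ¬ ℓ ∣ N := fun h => hℓNp (Dvd.dvd.mul_right h p)
  have hℓp : ¬ ℓ ∣ p := fun h => hℓNp (Dvd.dvd.mul_left h N)
  haveI : NeZero ℓ := ⟨hℓ.ne_zero⟩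
  haveI : Fact ℓ.Prime := ⟨hℓ⟩
  haveI : CharP (IsLocalRing.ResidueField A) ℓ := ese_charP hℓ hA
  have h := hE ℓ hℓ hℓN A hA
  have hR := est_riemann_fbar N
  obtain ⟨σ₀, hσ₀⟩ := hFE ℓ hℓ A hA
  refine ⟨JZeroC (IsLocalRing.ResidueField A) N, inferInstance, reductionModL A N, σ₀, hσ₀,
    ?_, ?_, ?_, ?_⟩
  · intro x hx
    rw [egr_red_frob h hR σ₀ hσ₀ x, hx]
    exact smul_zero (A := JZeroC (IsLocalRing.ResidueField A) N)
      (ca_aut (IsLocalRing.ResidueField A) N
        (egr_phi (⟨σ₀, hσ₀.mem_decompositionSubgroup⟩ : A.decompositionSubgroup ℚ)))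
  · intro τ hτ x
    exact egr_red_inertia h hR τ hτ x
  · intro x
    exact ese_relation h hR (hNL ℓ hℓ hℓN A hA) (hib_heckeInputsAlong N ℓ) σ₀ hσ₀ x
  · rintro x ⟨n, hn⟩ hx
    exact hS18 ℓ hℓ hℓN A hA h (p ^ n) (fun hd => hℓp (hℓ.dvd_of_dvd_pow hd)) x hn hx

end Fermat.Agent.JT3

end
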