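/-
JT3, Eichler–Shimura side: CONSEQUENCES ON `p`-POWER TORSION (the inputs (4)(c) of the plan for
S30/S29/S42): for `ℓ ∤ N p`, a place `A` over `ℓ`, and `x ∈ J₀(N)` of `p`-power order:

* `est_unramified`     : the inertia group at `A` fixes `x`;
* `est_frobQuadratic`  : `σ² x - T_ℓ (σ x) + ℓ x = 0` for every Frobenius element `σ` at `A`.

Both from the reduction package (`egr_red_inertia`, `ese_relation`) and the injectivity of `red` on
prime-to-`ℓ` torsion (the statement of S18).  Hypotheses: node E at level `N` (`hE`) and S18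
(`hS18`), in the shapes of `esw_specializationExists`; everything else is proved.
-/
import Mathlib
import Fermat.Agent.JT3.ES.Wiring
import Fermat.Agent.JT3.ES.NLRed
import Fermat.Agent.JT3.ES.FrobExists
import Fermat.Agent.JT3.NL.Swap
import Fermat.Agent.JT3.NL.Degree

set_option autoImplicit false
set_option synthInstance.maxHeartbeats 400000
set_option maxHeartbeats 1000000
set_option linter.style.haveILetI false

noncomputable section

namespace Fermat.Agent.JT3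

open ModularCurve AlgebraicCurve

/-- the seam [NL] is a theorem -/
theorem est_NL (N ℓ : ℕ) [NeZero N] (hℓ : ℓ.Prime) (hℓN : ¬ ℓ ∣ N)
    (A : ValuationSubring (AlgebraicClosure ℚ)) (hA : A.LiesOverPrime ℓ) :
    @ese_NL A N ℓ _ ⟨hℓ.ne_zero⟩ ⟨hℓ⟩ (ese_charP hℓ hA) :=
  haveI : NeZero ℓ := ⟨hℓ.ne_zero⟩
  haveI : Fact ℓ.Prime := ⟨hℓ⟩
  haveI : CharP (IsLocalRing.ResidueField A) ℓ := ese_charP hℓ hA
  nlr_NL hℓN (nld_finrankAlong N ℓ hℓ hℓN) (nls_exists_swap N ℓ hℓ hℓN)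

section Aux

variable {G M : Type*} [Group G] [AddCommGroup M] [DistribMulAction G M]

theorem est_nsmul_smul (g : G) (m : ℕ) (x : M) : m • (g • x) = g • (m • x) :=
  (map_nsmul (DistribSMul.toAddMonoidHom M g) m x).symm

theorem est_aux_inertia (τ : G) (x : M) (m : ℕ) (h : m • x = 0) : m • (τ • x - x) = 0 := by
  rw [nsmul_sub, est_nsmul_smul, h, smul_zero, sub_zero]

theorem est_aux_frob (σ : G) (T : M →+ M) (x : M) (m ℓ : ℕ) (h : m • x = 0) :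
    m • (σ • σ • x - T (σ • x) + ℓ • x) = 0 := by
  rw [nsmul_add, nsmul_sub, est_nsmul_smul, est_nsmul_smul, ← map_nsmul T, est_nsmul_smul,
    nsmul_left_comm, h]
  simp

end Aux

variable (N p : ℕ) [NeZero N]

/-- **S37 from node E and S18 alone.** -/
theorem est_specializationExists (hcomm : HeckeOperatorsCommuteBar N)
    (hE : ∀ ℓ : ℕ, ℓ.Prime → ¬ ℓ ∣ N →
      ∀ A : ValuationSubring (AlgebraicClosure ℚ), A.LiesOverPrime ℓ → ReductionInputsModL A N)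
    (hS18 : ∀ ℓ : ℕ, ℓ.Prime → ¬ ℓ ∣ N →
      ∀ A : ValuationSubring (AlgebraicClosure ℚ), A.LiesOverPrime ℓ →
        ReductionInputsModL A N → ∀ m : ℕ, ¬ ℓ ∣ m → ∀ z : JZero N, m • z = 0 →
          reductionModL A N z = 0 → z = 0) :
    letI := heckeModuleBar N
    ∀ (_ : SMulCommClass (AlgebraicClosure ℚ ≃ₐ[ℚ] AlgebraicClosure ℚ) HeckeAlg (JZero N)),
      SpecializationExists (K := ℚ) (L := AlgebraicClosure ℚ) N p (JZero N) :=
  esw_specializationExists N p hcomm hE hS18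
    (fun _ hℓ A hA => fex_exists_isFrobeniusAt hℓ A hA)
    (fun ℓ hℓ hℓN A hA => est_NL N ℓ hℓ hℓN A hA)

/-- **unramified outside `N p`** on `p`-power torsion -/
theorem est_unramified
    (hE : ∀ ℓ : ℕ, ℓ.Prime → ¬ ℓ ∣ N →
      ∀ A : ValuationSubring (AlgebraicClosure ℚ), A.LiesOverPrime ℓ → ReductionInputsModL A N)
    (hS18 : ∀ ℓ : ℕ, ℓ.Prime → ¬ ℓ ∣ N →
      ∀ A : ValuationSubring (AlgebraicClosure ℚ), A.LiesOverPrime ℓ →
        ReductionInputsModL A N → ∀ m : ℕ, ¬ ℓ ∣ m → ∀ z : JZero N, m • z = 0 →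
          reductionModL A N z = 0 → z = 0)
    (ℓ : ℕ) (hℓ : ℓ.Prime) (hℓNp : ¬ ℓ ∣ N * p)
    (A : ValuationSubring (AlgebraicClosure ℚ)) (hA : A.LiesOverPrime ℓ)
    (τ : AlgebraicClosure ℚ ≃ₐ[ℚ] AlgebraicClosure ℚ) (hτ : τ ∈ A.inertiaSubgroupIn ℚ)
    (x : JZero N) (hx : ∃ n : ℕ, p ^ n • x = 0) : τ • x = x := by
  have hℓN : ¬ ℓ ∣ N := fun h => hℓNp (Dvd.dvd.mul_right h p)
  have hℓp : ¬ ℓ ∣ p := fun h => hℓNp (Dvd.dvd.mul_left h N)
  have h := hE ℓ hℓ hℓN A hA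
  have hR := est_riemann_fbar N
  obtain ⟨n, hn⟩ := hx
  have h0 : τ • x - x = 0 := by
    refine hS18 ℓ hℓ hℓN A hA h (p ^ n) (fun hd => hℓp (hℓ.dvd_of_dvd_pow hd)) _ ?_ ?_
    · exact est_aux_inertia τ x _ hn
    · rw [map_sub, egr_red_inertia h hR τ hτ x, sub_self]
  exact sub_eq_zero.mp h0

/-- **the Eichler–Shimura relation** on `p`-power torsion -/
theorem est_frobQuadratic
    (hE : ∀ ℓ : ℕ, ℓ.Prime → ¬ ℓ ∣ N →
      ∀ A : ValuationSubring (AlgebraicClosure ℚ), A.LiesOverPrime ℓ → ReductionInputsModL A N)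
    (hS18 : ∀ ℓ : ℕ, ℓ.Prime → ¬ ℓ ∣ N →
      ∀ A : ValuationSubring (AlgebraicClosure ℚ), A.LiesOverPrime ℓ →
        ReductionInputsModL A N → ∀ m : ℕ, ¬ ℓ ∣ m → ∀ z : JZero N, m • z = 0 →
          reductionModL A N z = 0 → z = 0)
    (ℓ : ℕ) (hℓ : ℓ.Prime) (hℓNp : ¬ ℓ ∣ N * p)
    (A : ValuationSubring (AlgebraicClosure ℚ)) (hA : A.LiesOverPrime ℓ)
    (σ : AlgebraicClosure ℚ ≃ₐ[ℚ] AlgebraicClosure ℚ) (hσ : A.IsFrobeniusAt σ ℓ)
    (x : JZero N) (hx : ∃ n : ℕ, p ^ n • x = 0) :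
    σ • σ • x - heckeOperatorBar N ⟨ℓ, hℓ⟩ (σ • x) + ℓ • x = 0 := by
  have hℓN : ¬ ℓ ∣ N := fun h => hℓNp (Dvd.dvd.mul_right h p)
  have hℓp : ¬ ℓ ∣ p := fun h => hℓNp (Dvd.dvd.mul_left h N)
  haveI : NeZero ℓ := ⟨hℓ.ne_zero⟩
  haveI : Fact ℓ.Prime := ⟨hℓ⟩
  haveI : CharP (IsLocalRing.ResidueField A) ℓ := ese_charP hℓ hA
  have h := hE ℓ hℓ hℓN A hA
  have hR := est_riemann_fbar N
  obtain ⟨n, hn⟩ := hx
  refine hS18 ℓ hℓ hℓN A hA h (p ^ n) (fun hd => hℓp (hℓ.dvd_of_dvd_pow hd)) _ ?_ ?_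
  · exact est_aux_frob σ (heckeOperatorBar N ⟨ℓ, hℓ⟩).toAddMonoidHom x _ ℓ hn
  · rw [map_add, map_sub, map_nsmul]
    exact ese_relation h hR (est_NL N ℓ hℓ hℓN A hA) (hib_heckeInputsAlong N ℓ) σ hσ x

end Fermat.Agent.JT3

end
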