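/-
JT3 (Jacobian tower), Eichler–Shimura side: the INERT NORM LEMMA.

`F ⊆ F'` a finite extension of fields, `O` a valuation ring of `F` with residue map `ρ : O → κ`,
`O' ⊆ F'` a subring containing `O` with a compatible surjective map `ρ' : O' → κ'`.  If
`[κ' : κ] = [F' : F]` ("inert: `e = 1`, `f = n`") then `O'` is free over `O` on lifts of a residue
basis, and the norm commutes with reduction:
`N_{F'/F}(z) ∈ O` and `ρ (N_{F'/F} z) = N_{κ'/κ} (ρ' z)` for `z ∈ O'`.
Pure valuation theory; no discreteness, no completeness.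
-/
import Mathlib

set_option autoImplicit false

namespace Fermat.Agent.JT3

open Module

section Pivot

variable {F : Type*} [Field F] (O : ValuationSubring F)

/-- a nonzero finite family has a pivot: an entry of maximal valuation -/
theorem inn_exists_pivot {ι : Type*} [Fintype ι] (c : ι → F) (hc : c ≠ 0) :
    ∃ j, c j ≠ 0 ∧ ∀ i, c i / c j ∈ O := by
  obtain ⟨i₀, hi₀⟩ : ∃ i₀, c i₀ ≠ 0 := by
    by_contra h
    push Not at h
    exact hc (funext h)
  obtain ⟨j, -, hj⟩ := Finset.exists_max_image Finset.univ (fun i => O.valuation (c i))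
    ⟨i₀, Finset.mem_univ _⟩
  have hvj : O.valuation (c j) ≠ 0 := by
    intro h0
    have h1 := hj i₀ (Finset.mem_univ _)
    rw [h0, le_zero_iff, map_eq_zero] at h1
    exact hi₀ h1
  have hcj : c j ≠ 0 := fun h => hvj (by rw [h, map_zero])
  refine ⟨j, hcj, fun i => ?_⟩
  rw [← O.valuation_le_one_iff, map_div₀]
  exact div_le_one_of_le₀ (hj i (Finset.mem_univ _)) zero_le

end Pivot

section Inert

variable {F F' κ κ' : Type*} [Field F] [Field F'] [Algebra F F'] [Field κ] [Field κ']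
  [Algebra κ κ']
variable (O : ValuationSubring F) (O' : Subring F')
  (hOO' : ∀ x : F, x ∈ O → algebraMap F F' x ∈ O')
  (ρ : O →+* κ) (ρ' : O' →+* κ')
  (hcompat : ∀ (x : F) (hx : x ∈ O),
    ρ' ⟨algebraMap F F' x, hOO' x hx⟩ = algebraMap κ κ' (ρ ⟨x, hx⟩))

include hcompat in
/-- reduction of an `O`-linear combination of elements of `O'` -/
theorem inn_rho_sum {ι : Type*} [Fintype ι] (b : ι → O') (d : ι → F) (hd : ∀ i, d i ∈ O)
    (x : O') (hx : (x : F') = ∑ i, d i • (b i : F')) :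
    ρ' x = ∑ i, ρ ⟨d i, hd i⟩ • ρ' (b i) := by
  have hx' : x = ∑ i, (⟨algebraMap F F' (d i), hOO' _ (hd i)⟩ : O') * b i := by
    apply Subtype.ext
    rw [hx]
    have e := map_sum O'.subtype (fun i => (⟨algebraMap F F' (d i), hOO' _ (hd i)⟩ : O') * b i)
      Finset.univ
    rw [Subring.coe_subtype] at e
    rw [e]
    refine Finset.sum_congr rfl fun i _ => ?_
    rw [Subring.coe_mul, Algebra.smul_def]
  rw [hx', map_sum]
  refine Finset.sum_congr rfl fun i _ => ?_
  rw [map_mul, hcompat, Algebra.smul_def]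

include hcompat in
/-- lifts of a `κ`-linearly independent family are `F`-linearly independent -/
theorem inn_linearIndependent {ι : Type*} [Fintype ι] (b : ι → O')
    (hb : LinearIndependent κ (fun i => ρ' (b i))) :
    LinearIndependent F (fun i => ((b i : O') : F')) := by
  rw [Fintype.linearIndependent_iff]
  intro c hc
  by_contra hne
  push Not at hne
  have hc0 : c ≠ 0 := by
    obtain ⟨i, hi⟩ := hne
    exact fun h => hi (by rw [h]; rfl)
  obtain ⟨j, hcj, hj⟩ := inn_exists_pivot O c hc0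
  have hsum : ((0 : O') : F') = ∑ i, (c i / c j) • ((b i : O') : F') := by
    have : ∑ i, (c i / c j) • ((b i : O') : F') = (c j)⁻¹ • ∑ i, c i • ((b i : O') : F') := by
      rw [Finset.smul_sum]
      refine Finset.sum_congr rfl fun i _ => ?_
      rw [smul_smul, div_eq_inv_mul]
    rw [this, hc, smul_zero]
    rfl
  have h0 := inn_rho_sum O O' hOO' ρ ρ' hcompat b (fun i => c i / c j) hj 0 hsum
  rw [map_zero] at h0
  have h1 := (Fintype.linearIndependent_iff.mp hb) _ h0.symm j
  have h2 : (⟨c j / c j, hj j⟩ : O) = 1 := Subtype.ext (div_self hcj)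
  rw [h2, map_one] at h1
  exact one_ne_zero h1

variable (hρ : ∀ x : O, x ∈ IsLocalRing.maximalIdeal O → ρ x = 0)

include hcompat hρ in
/-- the coordinates of an element of `O'` with respect to lifts of a residue basis lie in `O` -/
theorem inn_repr_mem {ι : Type*} [Fintype ι] (b : ι → O')
    (hb : LinearIndependent κ (fun i => ρ' (b i)))
    (𝔟 : Basis ι F F') (h𝔟 : ∀ i, 𝔟 i = ((b i : O') : F')) (x : O') (i : ι) :
    𝔟.repr (x : F') i ∈ O := by
  by_contra hi
  set c : ι → F := fun i => 𝔟.repr (x : F') i with hc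
  have hc0 : c ≠ 0 := by
    intro h
    apply hi
    have : c i = 0 := by rw [h]; rfl
    rw [show 𝔟.repr (x : F') i = c i from rfl, this]
    exact O.zero_mem
  obtain ⟨j, hcj, hj⟩ := inn_exists_pivot O c hc0
  -- `c j ∉ O`
  have hcjO : c j ∉ O := by
    intro h
    apply hi
    have : c i = (c i / c j) * c j := by field_simp
    rw [show 𝔟.repr (x : F') i = c i from rfl, this]
    exact O.mul_mem _ _ (hj i) h
  have hinv : (c j)⁻¹ ∈ O := (O.mem_or_inv_mem (c j)).resolve_left hcjO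
  have hinvm : (⟨(c j)⁻¹, hinv⟩ : O) ∈ IsLocalRing.maximalIdeal O := by
    rw [IsLocalRing.mem_maximalIdeal, mem_nonunits_iff]
    intro hu
    apply hcjO
    obtain ⟨u, hu⟩ := hu
    have h1 : ((u⁻¹ : Oˣ) : O) * ⟨(c j)⁻¹, hinv⟩ = 1 := by rw [← hu]; exact u.inv_mul
    have h2 : (((u⁻¹ : Oˣ) : O) : F) * (c j)⁻¹ = 1 := by
      have := congrArg (Subtype.val) h1
      simpa using this
    have h3 : (((u⁻¹ : Oˣ) : O) : F) = c j := by
      field_simp at h2
      exact h2
    rw [← h3]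
    exact ((u⁻¹ : Oˣ) : O).2
  have hxsum : (x : F') = ∑ i, c i • ((b i : O') : F') := by
    conv_lhs => rw [← 𝔟.sum_repr (x : F')]
    exact Finset.sum_congr rfl fun i _ => by rw [h𝔟]
  have hsum : ((x * ⟨algebraMap F F' (c j)⁻¹, hOO' _ hinv⟩ : O') : F')
      = ∑ i, (c i / c j) • ((b i : O') : F') := by
    rw [Subring.coe_mul, hxsum, Finset.sum_mul]
    refine Finset.sum_congr rfl fun i _ => ?_
    rw [Algebra.smul_def, Algebra.smul_def, div_eq_mul_inv, map_mul]
    ring
  have h0 := inn_rho_sum O O' hOO' ρ ρ' hcompat b (fun i => c i / c j) hj _ hsum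
  rw [map_mul, hcompat _ hinv, hρ _ hinvm, map_zero, mul_zero] at h0
  have h1 := (Fintype.linearIndependent_iff.mp hb) _ h0.symm j
  have h2 : (⟨c j / c j, hj j⟩ : O) = 1 := Subtype.ext (div_self hcj)
  rw [h2, map_one] at h1
  exact one_ne_zero h1

include hcompat hρ in
/-- **Inert norm lemma, basis form.**  `b` lifts a `κ`-basis of `κ'` and has `[F' : F]` elements.
Then `N_{F'/F}(z) ∈ O` and `ρ (N z) = N_{κ'/κ} (ρ' z)` for every `z ∈ O'`. -/
theorem inn_norm_of_lift {ι : Type*} [Fintype ι] [DecidableEq ι] [Nonempty ι] (b : ι → O')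
    (hb : LinearIndependent κ (fun i => ρ' (b i)))
    (hcardF : Fintype.card ι = finrank F F') (hcardκ : Fintype.card ι = finrank κ κ')
    (z : O') :
    ∃ h : Algebra.norm F (z : F') ∈ O, ρ ⟨Algebra.norm F (z : F'), h⟩ = Algebra.norm κ (ρ' z) := by
  have hbF := inn_linearIndependent O O' hOO' ρ ρ' hcompat b hb
  set 𝔟 : Basis ι F F' := basisOfLinearIndependentOfCardEqFinrank hbF hcardF with h𝔟def
  have h𝔟 : ∀ i, 𝔟 i = ((b i : O') : F') := fun i => by
    rw [h𝔟def, coe_basisOfLinearIndependentOfCardEqFinrank]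
  set 𝔠 : Basis ι κ κ' := basisOfLinearIndependentOfCardEqFinrank hb hcardκ with h𝔠def
  have h𝔠 : ∀ i, 𝔠 i = ρ' (b i) := fun i => by
    rw [h𝔠def, coe_basisOfLinearIndependentOfCardEqFinrank]
  -- the matrix of multiplication by `z`, with entries in `O`
  have hmem : ∀ i j, Algebra.leftMulMatrix 𝔟 (z : F') i j ∈ O := by
    intro i j
    rw [Algebra.leftMulMatrix_eq_repr_mul, h𝔟 j]
    exact inn_repr_mem O O' hOO' ρ ρ' hcompat hρ b hb 𝔟 h𝔟 (z * b j) i
  set M₀ : Matrix ι ι O := fun i j => ⟨Algebra.leftMulMatrix 𝔟 (z : F') i j, hmem i j⟩ with hM₀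
  have hM : Algebra.leftMulMatrix 𝔟 (z : F') = M₀.map O.subtype := by
    ext i j
    rfl
  have hnorm : Algebra.norm F (z : F') = O.subtype M₀.det := by
    rw [Algebra.norm_eq_matrix_det 𝔟, hM]
    exact (RingHom.map_det O.subtype M₀).symm
  refine ⟨by rw [hnorm]; exact (M₀.det).2, ?_⟩
  have e1 : (⟨Algebra.norm F (z : F'), by rw [hnorm]; exact (M₀.det).2⟩ : O) = M₀.det :=
    Subtype.ext hnorm
  rw [e1, RingHom.map_det, Algebra.norm_eq_matrix_det 𝔠]
  congr 1
  ext i j
  rw [Algebra.leftMulMatrix_eq_repr_mul, RingHom.mapMatrix_apply, Matrix.map_apply]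
  -- `ρ' z * 𝔠 j = ∑ i, ρ (M₀ i j) • 𝔠 i`
  have hcol : ((z * b j : O') : F') = ∑ i, (M₀ i j : F) • ((b i : O') : F') := by
    have := (𝔟.sum_repr ((z : F') * 𝔟 j)).symm
    rw [Subring.coe_mul, ← h𝔟 j, this]
    refine Finset.sum_congr rfl fun i _ => ?_
    rw [h𝔟 i, ← Algebra.leftMulMatrix_eq_repr_mul]
  have h0 := inn_rho_sum O O' hOO' ρ ρ' hcompat b (fun i => (M₀ i j : F)) (fun i => (M₀ i j).2)
    (z * b j) hcol
  rw [map_mul] at h0
  rw [h𝔠 j, h0]
  have : ∑ i, ρ ⟨(M₀ i j : F), (M₀ i j).2⟩ • ρ' (b i) = ∑ i, ρ (M₀ i j) • 𝔠 i :=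
    Finset.sum_congr rfl fun i _ => by rw [h𝔠 i]
  rw [this, 𝔠.repr_sum_self]

include hcompat hρ in
/-- **Inert norm lemma.**  `ρ'` surjective and `[κ' : κ] = [F' : F]`: the norm commutes with
reduction. -/
theorem inn_norm [FiniteDimensional F F'] (hsurj : Function.Surjective ρ')
    (hdeg : finrank κ κ' = finrank F F') (z : O') :
    ∃ h : Algebra.norm F (z : F') ∈ O, ρ ⟨Algebra.norm F (z : F'), h⟩ = Algebra.norm κ (ρ' z) := by
  classical
  have hpos : 0 < finrank κ κ' := by rw [hdeg]; exact finrank_pos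
  have : Module.Finite κ κ' := Module.finite_of_finrank_pos hpos
  have : Nonempty (Fin (finrank κ κ')) := ⟨⟨0, hpos⟩⟩
  let 𝔠 := Module.finBasis κ κ'
  choose b hb using fun i => hsurj (𝔠 i)
  have hli : LinearIndependent κ (fun i => ρ' (b i)) := by
    have : (fun i => ρ' (b i)) = 𝔠 := funext hb
    rw [this]
    exact 𝔠.linearIndependent
  exact inn_norm_of_lift O O' hOO' ρ ρ' hcompat hρ b hli
    (by rw [Fintype.card_fin, hdeg]) (by rw [Fintype.card_fin]) z

end Inert

end Fermat.Agent.JT3
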